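import Fermat.Agent.DerivZetaZeros.LowHeight
import Fermat.Agent.APoints.Local

/-!
# Counting in a rectangle

The number of zeros in a rectangle is the change of the argument on its sides; it follows from
Littlewood's lemma for `f` and for its rotation by a half turn. On a horizontal side the change
is `O (log t)` by Jensen's inequality; on a side where a real part is positive it is at most `π`
in each direction.
-/

set_option autoImplicit false

noncomputable section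

namespace FA.DerivZetaZeros

open Complex Filter MeasureTheory Set Metric Topology
open FA.LevinsonThird (littlewood_rect continuousAt_logDeriv abs_arg_edge_le)
open FA.APoints (aDomain isOpen_aDomain convex_aDomain norm_zeta_wide)
open FA.Levinson (analyticAt_zeta)
open scoped Real Interval

theorem sum_re_sub_add (Z : Multiset ℂ) (σ₁ σ₂ : ℝ) :
    (Z.map fun ρ => ρ.re - σ₁).sum + (Z.map fun ρ => σ₂ - ρ.re).sum =
      (σ₂ - σ₁) * Multiset.card Z := by
  induction Z using Multiset.induction_on with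
  | empty => simp
  | cons ρ Y ih =>
    simp only [Multiset.map_cons, Multiset.sum_cons, Multiset.card_cons]
    push_cast
    linarith

/-- Horizontal and vertical integrals of the rotated function. -/
theorem integral_rotate (L : ℂ → ℂ) (w : ℂ → ℂ) (σ₁ σ₂ y : ℝ)
    (hw : ∀ u : ℝ, w ((u : ℂ) + y * I) = ((σ₁ + σ₂ - u : ℝ) : ℂ) + ((w (y * I)).im : ℂ) * I)
    (hi : IntervalIntegrable (fun u : ℝ =>
      (L ((u : ℂ) + ((w (y * I)).im : ℂ) * I)).im) volume σ₁ σ₂) :
    (∫ u in σ₁..σ₂, (u - σ₁) * (-L (w ((u : ℂ) + y * I))).im) =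
      (∫ u in σ₁..σ₂, (u - σ₁) * (L ((u : ℂ) + ((w (y * I)).im : ℂ) * I)).im) -
        (σ₂ - σ₁) * ∫ u in σ₁..σ₂, (L ((u : ℂ) + ((w (y * I)).im : ℂ) * I)).im := by
  obtain ⟨F, hF⟩ : ∃ F : ℝ → ℝ,
      F = fun u : ℝ => (L ((u : ℂ) + ((w (y * I)).im : ℂ) * I)).im := ⟨_, rfl⟩
  have e : ∀ u : ℝ, (L ((u : ℂ) + ((w (y * I)).im : ℂ) * I)).im = F u := fun u => by rw [hF]
  simp only [hw, neg_im, e]
  have h := intervalIntegral.integral_comp_sub_left (fun u => (σ₁ - σ₂) * F u + (u - σ₁) * F u)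
    (σ₁ + σ₂) (a := σ₁) (b := σ₂)
  rw [show σ₁ + σ₂ - σ₂ = σ₁ by ring, show σ₁ + σ₂ - σ₁ = σ₂ by ring] at h
  rw [show (fun u : ℝ => (u - σ₁) * -F (σ₁ + σ₂ - u)) =
    fun u => (σ₁ - σ₂) * F (σ₁ + σ₂ - u) + (σ₁ + σ₂ - u - σ₁) * F (σ₁ + σ₂ - u) by
      funext u; ring, h]
  have hi' : IntervalIntegrable F volume σ₁ σ₂ := hF ▸ hi
  rw [intervalIntegral.integral_add (f := fun u => (σ₁ - σ₂) * F u)
    (g := fun u => (u - σ₁) * F u) (hi'.const_mul _)
    (hi'.continuousOn_mul (continuous_id.sub continuous_const).continuousOn),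
    intervalIntegral.integral_const_mul]
  ring

/-- **The argument principle on a rectangle.** -/
theorem rect_count {f : ℂ → ℂ} (hf : DifferentiableOn ℂ f aDomain) {σ₁ σ₂ y₁ y₂ : ℝ}
    (hy0 : 0 < y₁) (hσ : σ₁ < σ₂) (hy : y₁ < y₂)
    (hne : ∀ s : ℂ, s.re ∈ Icc σ₁ σ₂ → s.im ∈ Icc y₁ y₂ →
      (s.re = σ₁ ∨ s.re = σ₂ ∨ s.im = y₁ ∨ s.im = y₂) → f s ≠ 0) :
    ∃ Z : Multiset ℂ, (∀ ρ ∈ Z, ρ.re ∈ Ioo σ₁ σ₂ ∧ ρ.im ∈ Ioo y₁ y₂) ∧
      (∀ z : ℂ, z.re ∈ Icc σ₁ σ₂ → z.im ∈ Icc y₁ y₂ → analyticOrderNatAt f z = Z.count z) ∧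
      2 * π * Multiset.card Z =
        (∫ v in y₁..y₂, (deriv f ((σ₂ : ℂ) + v * I) / f ((σ₂ : ℂ) + v * I)).re) -
          (∫ v in y₁..y₂, (deriv f ((σ₁ : ℂ) + v * I) / f ((σ₁ : ℂ) + v * I)).re) +
        (∫ u in σ₁..σ₂, (deriv f ((u : ℂ) + y₁ * I) / f ((u : ℂ) + y₁ * I)).im) -
        ∫ u in σ₁..σ₂, (deriv f ((u : ℂ) + y₂ * I) / f ((u : ℂ) + y₂ * I)).im := by
  obtain ⟨Z, hZin, hZord, hZe⟩ := littlewood_rect isOpen_aDomain convex_aDomain.isPreconnected hf
    hσ hy (fun s _ h2 => show 0 < s.im by linarith [h2.1]) hne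
  obtain ⟨c, hc⟩ : ∃ c : ℂ, c = ((σ₁ + σ₂ : ℝ) : ℂ) + ((y₁ + y₂ : ℝ) : ℂ) * I := ⟨_, rfl⟩
  have hcre : ∀ z, (c - z).re = σ₁ + σ₂ - z.re := fun z => by simp [hc]
  have hcim : ∀ z, (c - z).im = y₁ + y₂ - z.im := fun z => by simp [hc]
  have hU' : IsOpen {z : ℂ | z.im < y₁ + y₂} := isOpen_lt continuous_im continuous_const
  have hmem : ∀ z : ℂ, z.im < y₁ + y₂ → c - z ∈ aDomain := fun z hz =>
    show 0 < (c - z).im by rw [hcim]; linarith
  have hg : DifferentiableOn ℂ (fun z => f (c - z)) {z : ℂ | z.im < y₁ + y₂} := fun z hz =>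
    ((hf.differentiableAt (isOpen_aDomain.mem_nhds (hmem z hz))).comp z
      (differentiableAt_id.const_sub c)).differentiableWithinAt
  have hflip : ∀ z : ℂ, z.re ∈ Icc σ₁ σ₂ → z.im ∈ Icc y₁ y₂ →
      (c - z).re ∈ Icc σ₁ σ₂ ∧ (c - z).im ∈ Icc y₁ y₂ := fun z h1 h2 => by
    rw [hcre, hcim]
    exact ⟨⟨by linarith [h1.2], by linarith [h1.1]⟩, by linarith [h2.2], by linarith [h2.1]⟩
  obtain ⟨W, hWin, hWord, hWe⟩ := littlewood_rect hU'
    (convex_halfSpace_im_lt _).isPreconnected hg hσ hy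
    (fun s _ h2 => show s.im < y₁ + y₂ by linarith [h2.2]) fun s h1 h2 h3 => by
      obtain ⟨a1, a2⟩ := hflip s h1 h2
      refine hne _ a1 a2 ?_
      rw [hcre, hcim]
      rcases h3 with e | e | e | e
      · exact Or.inr (Or.inl (by rw [e]; ring))
      · exact Or.inl (by rw [e]; ring)
      · exact Or.inr (Or.inr (Or.inr (by rw [e]; ring)))
      · exact Or.inr (Or.inr (Or.inl (by rw [e]; ring)))
  have hWZ : W = Z.map fun z => c - z := by
    classical
    refine Multiset.ext.2 fun z => ?_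
    have hinj : Function.Injective fun x : ℂ => c - x := sub_right_injective
    conv_rhs => rw [show z = c - (c - z) by ring, Multiset.count_map_eq_count' _ _ hinj]
    by_cases hz : z.re ∈ Icc σ₁ σ₂ ∧ z.im ∈ Icc y₁ y₂
    · obtain ⟨a1, a2⟩ := hflip z hz.1 hz.2
      rw [← hWord z hz.1 hz.2, ← hZord _ a1 a2, analyticOrderNatAt, analyticOrderNatAt,
        show (fun x => f (c - x)) = f ∘ fun x => c - x from rfl,
        analyticOrderAt_comp_of_deriv_ne_zero (g := fun x : ℂ => c - x) (z₀ := z) (f := f)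
          (by fun_prop) (by simp)]
    · rw [Multiset.count_eq_zero.2 fun h => hz ⟨Ioo_subset_Icc_self (hWin z h).1,
        Ioo_subset_Icc_self (hWin z h).2⟩, Multiset.count_eq_zero.2 fun h => hz ?_]
      obtain ⟨a1, a2⟩ := hflip _ (Ioo_subset_Icc_self (hZin _ h).1)
        (Ioo_subset_Icc_self (hZin _ h).2)
      rw [sub_sub_cancel] at a1 a2
      exact ⟨a1, a2⟩
  refine ⟨Z, hZin, hZord, ?_⟩
  obtain ⟨L, hL⟩ : ∃ L : ℂ → ℂ, L = fun z => deriv f z / f z := ⟨_, rfl⟩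
  have hLg : ∀ z, deriv (fun x => f (c - x)) z / f (c - z) = -L (c - z) := fun z => by
    rw [deriv_comp_const_sub, hL, neg_div]
  simp only [hLg] at hWe
  have hLz : ∀ z, deriv f z / f z = L z := fun z => by rw [hL]
  simp only [hLz] at hZe ⊢
  have hhor : ∀ y : ℝ, (y = y₁ ∨ y = y₂) →
      IntervalIntegrable (fun u : ℝ => (L ((u : ℂ) + y * I)).im) volume σ₁ σ₂ := fun y hy' => by
    refine ContinuousOn.intervalIntegrable fun u hu => ?_
    rw [uIcc_of_le hσ.le] at hu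
    have hyI : y ∈ Icc y₁ y₂ := by
      rcases hy' with rfl | rfl
      · exact left_mem_Icc.2 hy.le
      · exact right_mem_Icc.2 hy.le
    rw [hL]
    exact (Complex.continuous_im.continuousAt.comp'
      ((continuousAt_logDeriv isOpen_aDomain hf (show 0 < ((u : ℂ) + y * I).im by
          simp; linarith [hyI.1])
        (hne _ (by simpa using hu) (by simpa using hyI) (by
          rcases hy' with rfl | rfl <;> simp))).comp'
        (f := fun v : ℝ => (v : ℂ) + y * I) (by fun_prop))).continuousWithinAt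
  have him1 : ((c - (y₁ : ℂ) * I).im) = y₂ := by rw [hcim]; simp
  have him2 : ((c - (y₂ : ℂ) * I).im) = y₁ := by rw [hcim]; simp
  have e1 := integral_rotate L (fun z => c - z) σ₁ σ₂ y₁ (fun u => by
    rw [him1, hc]; push_cast; ring) (by rw [him1]; exact hhor y₂ (Or.inr rfl))
  have e2 := integral_rotate L (fun z => c - z) σ₁ σ₂ y₂ (fun u => by
    rw [him2, hc]; push_cast; ring) (by rw [him2]; exact hhor y₁ (Or.inl rfl))
  rw [him1] at e1
  rw [him2] at e2
  have hv : ∀ (σ : ℝ) (F : ℂ → ℝ), (∫ v in y₁..y₂, F (c - ((σ : ℂ) + v * I))) =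
      ∫ v in y₁..y₂, F (((σ₁ + σ₂ - σ : ℝ) : ℂ) + v * I) := fun σ F => by
    have h := intervalIntegral.integral_comp_sub_left
      (fun v : ℝ => F (((σ₁ + σ₂ - σ : ℝ) : ℂ) + v * I)) (y₁ + y₂) (a := y₁) (b := y₂)
    rw [show y₁ + y₂ - y₂ = y₁ by ring, show y₁ + y₂ - y₁ = y₂ by ring] at h
    rw [← h]
    refine intervalIntegral.integral_congr fun v _ => ?_
    simp only [hc]
    congr 1
    push_cast
    ring
  have hlog1 := hv σ₁ fun z => Real.log ‖f z‖
  have hlog2 := hv σ₂ fun z => Real.log ‖f z‖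
  have hre2 := hv σ₂ fun z => (-L z).re
  rw [e1, e2, hlog1, hlog2, hre2, show σ₁ + σ₂ - σ₁ = σ₂ by ring,
    show σ₁ + σ₂ - σ₂ = σ₁ by ring, hWZ, Multiset.map_map] at hWe
  rw [show ((fun ρ : ℂ => ρ.re - σ₁) ∘ fun z => c - z) = fun ρ : ℂ => σ₂ - ρ.re by
    funext ρ; simp only [Function.comp_apply, hcre]; ring] at hWe
  simp only [neg_re, intervalIntegral.integral_neg] at hWe
  refine mul_left_cancel₀ (sub_ne_zero.2 hσ.ne') ?_
  linear_combination hZe + hWe - 2 * π * sum_re_sub_add Z σ₁ σ₂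

/-- One root along a horizontal segment. -/
theorem root_turn {a b t : ℝ} {ρ : ℂ} (hne : ∀ u ∈ uIcc a b, (u : ℂ) + t * I ≠ ρ) :
    IntervalIntegrable (fun u : ℝ => ((u : ℂ) + t * I - ρ)⁻¹) volume a b ∧
      |(∫ u in a..b, ((u : ℂ) + t * I - ρ)⁻¹).im| ≤ 2 * π := by
  have hi : IntervalIntegrable (fun u : ℝ => ((u : ℂ) + t * I - ρ)⁻¹) volume a b :=
    (ContinuousOn.inv₀ (by fun_prop) fun u hu => sub_ne_zero.2 (hne u hu)).intervalIntegrable
  refine ⟨hi, ?_⟩
  rcases eq_or_ne ρ.im t with h | h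
  · rw [(FA.LevinsonThird.integral_re_im hi).2]
    simp [Complex.inv_im, h, Real.pi_pos.le]
  · simp only [show ∀ u : ℝ, (u : ℂ) + t * I - ρ = (u : ℂ) + (t * I - ρ) from fun u => by ring]
    rw [RiemannMangoldt.integral_inv_horizontal (by simpa [sub_eq_zero] using h.symm),
      Complex.sub_im, Complex.log_im, Complex.log_im]
    exact RiemannMangoldt.abs_arg_sub_le _ _

theorem roots_turn {a b t : ℝ} (Z : Multiset ℂ)
    (hne : ∀ ρ ∈ Z, ∀ u ∈ uIcc a b, (u : ℂ) + t * I ≠ ρ) :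
    IntervalIntegrable (fun u : ℝ => (Z.map fun ρ => ((u : ℂ) + t * I - ρ)⁻¹).sum) volume a b ∧
      |(∫ u in a..b, (Z.map fun ρ => ((u : ℂ) + t * I - ρ)⁻¹).sum).im| ≤
        2 * π * Multiset.card Z := by
  induction Z using Multiset.induction_on with
  | empty => simp
  | cons ρ Y ih =>
    obtain ⟨hi, hb⟩ := ih fun x hx => hne x (Multiset.mem_cons_of_mem hx)
    obtain ⟨hi1, hb1⟩ := root_turn (hne ρ (Multiset.mem_cons_self ρ Y))
    simp only [Multiset.map_cons, Multiset.sum_cons, Multiset.card_cons]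
    refine ⟨hi1.add hi, ?_⟩
    rw [intervalIntegral.integral_add hi1 hi, add_im]
    refine (abs_add_le _ _).trans ?_
    push_cast
    linarith

/-- **Horizontal sides** for a function of polynomial growth that is not small at `10 + it`. -/
theorem exists_hor_le {f : ℂ → ℂ} (hf : DifferentiableOn ℂ f aDomain) {m M : ℝ} (hm : 0 < m)
    (hlow : ∀ t : ℝ, m ≤ ‖f (((10 : ℝ) : ℂ) + t * I)‖)
    (hup : ∀ z : ℂ, -2 ≤ z.re → 8 ≤ z.im → ‖f z‖ ≤ M * z.im ^ 5) :
    ∃ K, 0 ≤ K ∧ ∀ t : ℝ, 21 ≤ t → ∀ b ∈ Icc (-1 : ℝ) 10,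
      (∀ u ∈ Icc (-1 : ℝ) b, f ((u : ℂ) + t * I) ≠ 0) →
      |∫ u in (-1 : ℝ)..b, (deriv f ((u : ℂ) + t * I) / f ((u : ℂ) + t * I)).im| ≤
        K * Real.log t := by
  obtain ⟨K, hK, hexp⟩ := FA.RiemannMangoldt.exists_logDeriv_expansion (r₁ := (23 : ℝ) / 2)
    (r := 12) (r₂ := 11) (by norm_num) (by norm_num) (by norm_num)
  obtain ⟨B₀, hB₀⟩ : ∃ B₀ : ℝ, B₀ = |M| * 2 ^ 5 / m + 1 := ⟨_, rfl⟩
  have hB1 : 1 ≤ B₀ := by rw [hB₀]; exact le_add_of_nonneg_left (by positivity)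
  have hB1l := Real.log_nonneg hB1
  refine ⟨(2 * π + 11) * (K * (Real.log B₀ + 6)), by positivity, fun t ht b hb hne => ?_⟩
  have hlt : 1 ≤ Real.log t := by
    rw [← Real.log_exp 1]
    exact Real.log_le_log (Real.exp_pos 1) (by linarith [Real.exp_one_lt_d9])
  obtain ⟨s₀, hs₀⟩ : ∃ s₀ : ℂ, s₀ = ((10 : ℝ) : ℂ) + t * I := ⟨_, rfl⟩
  have hre : s₀.re = 10 := by simp [hs₀]
  have him : s₀.im = t := by simp [hs₀]
  obtain ⟨g, hg⟩ : ∃ g : ℂ → ℂ, g = fun z => f (s₀ + z) := ⟨_, rfl⟩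
  have hbox : ∀ z : ℂ, ‖z‖ < 13 → s₀ + z ∈ aDomain := fun z hz => by
    have := abs_le.1 ((abs_im_le_norm z).trans hz.le)
    show 0 < (s₀ + z).im
    rw [add_im, him]
    linarith
  have hgd : DifferentiableOn ℂ g (ball 0 13) := fun z hz => hg ▸
    ((hf.differentiableAt (isOpen_aDomain.mem_nhds (hbox z (by simpa using hz)))).comp z
      (differentiableAt_id.const_add s₀)).differentiableWithinAt
  have hg0 : m ≤ ‖g 0‖ := by
    simp only [hg, add_zero, hs₀]
    exact hlow t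
  obtain ⟨B, hB⟩ : ∃ B, B = B₀ * t ^ 5 := ⟨_, rfl⟩
  have hBge : 1 ≤ B := hB ▸ one_le_mul_of_one_le_of_one_le hB1 (one_le_pow₀ (by linarith))
  have hsph : ∀ z ∈ sphere (0 : ℂ) 12, ‖g z‖ ≤ B * ‖g 0‖ := fun z hz => by
    rw [mem_sphere_zero_iff_norm] at hz
    have ar := abs_le.1 ((abs_re_le_norm z).trans hz.le)
    have ai := abs_le.1 ((abs_im_le_norm z).trans hz.le)
    have h := hup (s₀ + z) (by rw [add_re, hre]; linarith) (by rw [add_im, him]; linarith)
    rw [add_im, him] at h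
    have h5 : (t + z.im) ^ 5 ≤ 2 ^ 5 * t ^ 5 := by
      rw [← mul_pow]
      exact pow_le_pow_left₀ (by linarith) (by linarith) 5
    have h6 : M * (t + z.im) ^ 5 ≤ |M| * (2 ^ 5 * t ^ 5) :=
      mul_le_mul (le_abs_self M) h5 (pow_nonneg (by linarith) 5) (abs_nonneg _)
    have h7 : |M| * (2 ^ 5 * t ^ 5) ≤ B * m := by
      rw [hB, hB₀]
      have : |M| * 2 ^ 5 / m * m = |M| * 2 ^ 5 := div_mul_cancel₀ _ hm.ne'
      nlinarith [pow_nonneg (show 0 ≤ t by linarith) 5]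
    simp only [hg]
    exact h.trans (h6.trans (h7.trans (by
      simpa [hg] using mul_le_mul_of_nonneg_left hg0 (show 0 ≤ B by linarith))))
  obtain ⟨Z, hZ, hcard, hord, hlog⟩ := hexp (ball 0 13) g B isOpen_ball
    (closedBall_subset_ball (by norm_num)) hgd
    (norm_pos_iff.1 (lt_of_lt_of_le hm hg0)) hBge hsph
  have hKB : K * (Real.log B + 1) ≤ K * (Real.log B₀ + 6) * Real.log t := by
    rw [hB, Real.log_mul (by linarith) (pow_ne_zero _ (by linarith)), Real.log_pow, mul_assoc]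
    refine mul_le_mul_of_nonneg_left ?_ hK
    push_cast
    nlinarith
  obtain ⟨Z', hZ'⟩ : ∃ Z', Z' = Z.map fun ρ => ρ + s₀ := ⟨_, rfl⟩
  have hu : ∀ u ∈ uIcc (-1 : ℝ) b, u ∈ Icc (-1 : ℝ) b := fun u hu => by rwa [uIcc_of_le hb.1] at hu
  have hroot : ∀ ρ ∈ Z', ∀ u ∈ uIcc (-1 : ℝ) b, (u : ℂ) + t * I ≠ ρ := by
    intro ρ hρ u hu' h
    rw [hZ'] at hρ
    obtain ⟨x, hx, rfl⟩ := Multiset.mem_map.1 hρ
    have hx' : 0 < Z.count x := Multiset.count_pos.2 hx
    rw [← hord x (hZ x hx)] at hx'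
    have hz : g x = 0 := apply_eq_zero_of_analyticOrderNatAt_ne_zero hx'.ne'
    refine hne u (hu u hu') ?_
    rw [h, add_comm]
    simpa [hg] using hz
  obtain ⟨hRi, hRb⟩ := roots_turn Z' hroot
  have hLc : ContinuousOn (fun u : ℝ => deriv f ((u : ℂ) + t * I) / f ((u : ℂ) + t * I))
      (uIcc (-1) b) := fun u hu' =>
    ((continuousAt_logDeriv isOpen_aDomain hf
      (show 0 < ((u : ℂ) + t * I).im by simp; linarith) (hne u (hu u hu'))).comp'
        (f := fun v : ℝ => (v : ℂ) + t * I) (by fun_prop)).continuousWithinAt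
  have hdiff : ‖∫ u in (-1 : ℝ)..b, (deriv f ((u : ℂ) + t * I) / f ((u : ℂ) + t * I) -
      (Z'.map fun ρ => ((u : ℂ) + t * I - ρ)⁻¹).sum)‖ ≤
      11 * (K * (Real.log B₀ + 6) * Real.log t) := by
    refine (intervalIntegral.norm_integral_le_of_norm_le_const
      (C := K * (Real.log B₀ + 6) * Real.log t) fun u hu' => ?_).trans ?_
    · rw [uIoc_of_le hb.1] at hu'
      have hmem : (u : ℂ) + t * I - s₀ ∈ closedBall (0 : ℂ) 11 := by
        rw [mem_closedBall_zero_iff, hs₀,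
          show (u : ℂ) + t * I - (((10 : ℝ) : ℂ) + t * I) = ((u - 10 : ℝ) : ℂ) by push_cast; ring,
          Complex.norm_real, Real.norm_eq_abs, abs_le]
        constructor <;> linarith [hu'.1, hu'.2, hb.2]
      have h1 := hlog _ hmem (by simpa [hg] using hne u ⟨hu'.1.le, hu'.2⟩)
      simp only [hg, deriv_comp_const_add, add_sub_cancel] at h1
      refine le_trans (le_of_eq ?_) (h1.trans hKB)
      rw [hZ', Multiset.map_map]
      congr 3
      refine Multiset.map_congr rfl fun ρ _ => ?_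
      simp only [Function.comp_apply]
      congr 1
      ring
    · rw [abs_of_nonneg (by linarith [hb.1]), mul_comm]
      exact mul_le_mul_of_nonneg_right (by linarith [hb.2]) (by positivity)
  rw [← (FA.LevinsonThird.integral_re_im hLc.intervalIntegrable).2]
  have h1 := (abs_im_le_norm _).trans hdiff
  rw [intervalIntegral.integral_sub hLc.intervalIntegrable hRi, sub_im] at h1
  have h2 : 2 * π * Multiset.card Z' ≤ 2 * π * (K * (Real.log B₀ + 6) * Real.log t) := by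
    refine mul_le_mul_of_nonneg_left ?_ (by positivity)
    rw [hZ', Multiset.card_map]
    exact hcard.trans hKB
  rw [show (2 * π + 11) * (K * (Real.log B₀ + 6)) * Real.log t =
    2 * π * (K * (Real.log B₀ + 6) * Real.log t) +
      11 * (K * (Real.log B₀ + 6) * Real.log t) by ring]
  rw [abs_le] at hRb h1 ⊢
  constructor <;> linarith

theorem differentiableOn_zeta : DifferentiableOn ℂ riemannZeta aDomain := fun s hs =>
  (differentiableAt_riemannZeta (ne_one_of_im (show s.im ≠ 0 from ne_of_gt hs))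
    ).differentiableWithinAt

theorem differentiableOn_derivZeta : DifferentiableOn ℂ (deriv riemannZeta) aDomain := fun s hs =>
  (analyticAt_zeta (ne_one_of_im (show s.im ≠ 0 from ne_of_gt hs))
    ).deriv.differentiableAt.differentiableWithinAt

theorem norm_zeta_poly {z : ℂ} (h1 : -3 ≤ z.re) (h2 : 7 ≤ z.im) :
    ‖riemannZeta z‖ ≤ Real.exp 100 * 10 ^ 5 * z.im ^ 5 := by
  refine (norm_zeta_wide h1 h2).trans ?_
  rw [mul_assoc, ← mul_pow]
  exact mul_le_mul_of_nonneg_left (pow_le_pow_left₀ (by linarith) (by linarith) 5)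
    (Real.exp_pos _).le

theorem exists_hor_zeta : ∃ K, 0 ≤ K ∧ ∀ t : ℝ, 21 ≤ t → ∀ b ∈ Icc (-1 : ℝ) 10,
    (∀ u ∈ Icc (-1 : ℝ) b, riemannZeta ((u : ℂ) + t * I) ≠ 0) →
    |∫ u in (-1 : ℝ)..b,
      (deriv riemannZeta ((u : ℂ) + t * I) / riemannZeta ((u : ℂ) + t * I)).im| ≤
      K * Real.log t :=
  exists_hor_le differentiableOn_zeta (m := 1 / 2) (by norm_num)
    (fun _ => (re_zeta_pos (by simp; norm_num)).trans (Complex.re_le_norm _))
    fun z h1 h2 => norm_zeta_poly (by linarith) (by linarith)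

theorem exists_hor_derivZeta : ∃ K, 0 ≤ K ∧ ∀ t : ℝ, 21 ≤ t → ∀ b ∈ Icc (-1 : ℝ) 10,
    (∀ u ∈ Icc (-1 : ℝ) b, deriv riemannZeta ((u : ℂ) + t * I) ≠ 0) →
    |∫ u in (-1 : ℝ)..b, (deriv (deriv riemannZeta) ((u : ℂ) + t * I) /
      deriv riemannZeta ((u : ℂ) + t * I)).im| ≤ K * Real.log t := by
  refine exists_hor_le differentiableOn_derivZeta (m := Real.log 2 / 2 ^ 11)
    (M := Real.exp 100 * 10 ^ 5 * 2 ^ 5) (div_pos (Real.log_pos one_lt_two) (by norm_num))
    (fun t => ?_) fun z h1 h2 => ?_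
  · obtain ⟨s, hs⟩ : ∃ s : ℂ, s = ((10 : ℝ) : ℂ) + t * I := ⟨_, rfl⟩
    have hre : s.re = 10 := by simp [hs]
    rw [← hs]
    have h := norm_dzNorm_sub_one_le (s := s) (by rw [hre])
    have h' := norm_sub_norm_le (1 : ℂ) (dzNorm s)
    rw [norm_one, norm_sub_rev] at h'
    have hn : ‖dzNorm s‖ = 2 ^ 10 * ‖deriv riemannZeta s‖ / Real.log 2 := by
      rw [dzNorm, norm_div, norm_neg, norm_mul, Complex.norm_real,
        Real.norm_of_nonneg (Real.log_pos one_lt_two).le, show (2 : ℂ) = ((2 : ℝ) : ℂ) by norm_num,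
        norm_cpow_eq_rpow_re_of_pos two_pos, hre]
      norm_num
    have h3 : 1 / 2 ≤ 2 ^ 10 * ‖deriv riemannZeta s‖ / Real.log 2 := by linarith
    rw [le_div_iff₀ (Real.log_pos one_lt_two)] at h3
    rw [div_le_iff₀ (by norm_num)]
    linarith
  · have hne : ∀ u ∈ closedBall z 1, u ≠ (1 : ℂ) := fun u hu h => by
      rw [mem_closedBall, h, dist_eq_norm] at hu
      have := (abs_le.1 ((abs_im_le_norm _).trans hu)).1
      simp at this
      linarith
    have hd := Complex.norm_deriv_le_of_forall_mem_sphere_norm_le (f := riemannZeta)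
      (C := Real.exp 100 * 10 ^ 5 * 2 ^ 5 * z.im ^ 5) one_pos
      (DifferentiableOn.diffContOnCl fun u hu => (differentiableAt_riemannZeta (hne u (by
        rwa [closure_ball _ one_ne_zero] at hu))).differentiableWithinAt) fun u hu => ?_
    · rwa [div_one] at hd
    · rw [mem_sphere, dist_eq_norm] at hu
      have hr := abs_le.1 ((abs_re_le_norm (u - z)).trans hu.le)
      have hi := abs_le.1 ((abs_im_le_norm (u - z)).trans hu.le)
      rw [sub_re] at hr
      rw [sub_im] at hi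
      refine (norm_zeta_poly (by linarith) (by linarith)).trans ?_
      rw [mul_assoc _ ((2 : ℝ) ^ 5), ← mul_pow]
      exact mul_le_mul_of_nonneg_left (pow_le_pow_left₀ (by linarith) (by linarith) 5)
        (by positivity)

/-- **A side where `re (ζ'/ζ) < 0`.** -/
theorem side_diff {σ a b : ℝ} (ha : 0 < a) (hab : a ≤ b)
    (h : ∀ v ∈ Icc a b, riemannZeta ((σ : ℂ) + v * I) ≠ 0 ∧ (zetaLog ((σ : ℂ) + v * I)).re < 0) :
    |(∫ v in a..b, (deriv (deriv riemannZeta) ((σ : ℂ) + v * I) /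
        deriv riemannZeta ((σ : ℂ) + v * I)).re) -
      ∫ v in a..b, (deriv riemannZeta ((σ : ℂ) + v * I) /
        riemannZeta ((σ : ℂ) + v * I)).re| ≤ 2 * π := by
  obtain ⟨U, hU⟩ : ∃ U : Set ℂ, U = {s | s ∈ aDomain ∧ riemannZeta s ≠ 0} := ⟨_, rfl⟩
  have hUo : IsOpen U := by
    rw [hU]
    exact differentiableOn_zeta.continuousOn.isOpen_inter_preimage isOpen_aDomain
      (isOpen_compl_singleton (x := (0 : ℂ)))
  have hd : DifferentiableOn ℂ (fun s => -zetaLog s) U := fun s hs => by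
    rw [hU] at hs
    exact (((differentiableOn_derivZeta.differentiableAt (isOpen_aDomain.mem_nhds hs.1)).div
      (differentiableOn_zeta.differentiableAt (isOpen_aDomain.mem_nhds hs.1)) hs.2).neg
      ).differentiableWithinAt
  have hmem : ∀ v ∈ uIcc a b, (σ : ℂ) + v * I ∈ aDomain := fun v hv => by
    rw [uIcc_of_le hab] at hv
    show 0 < ((σ : ℂ) + v * I).im
    simp
    linarith [hv.1]
  have h0 : ∀ v ∈ uIcc a b, riemannZeta ((σ : ℂ) + v * I) ≠ 0 ∧
      deriv riemannZeta ((σ : ℂ) + v * I) ≠ 0 := fun v hv => by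
    rw [uIcc_of_le hab] at hv
    refine ⟨(h v hv).1, fun he => ?_⟩
    have := (h v hv).2
    rw [zetaLog, he, zero_div, zero_re] at this
    exact lt_irrefl _ this
  have hb := abs_arg_edge_le hUo hd (σ := σ) (a := a) (b := b) fun v hv => by
    refine ⟨hU ▸ ⟨hmem v hv, (h0 v hv).1⟩, ?_⟩
    rw [uIcc_of_le hab] at hv
    rw [neg_re]
    linarith [(h v hv).2]
  have hc : ∀ {F : ℂ → ℂ}, DifferentiableOn ℂ F aDomain →
      (∀ v ∈ uIcc a b, F ((σ : ℂ) + v * I) ≠ 0) → IntervalIntegrable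
        (fun v : ℝ => (deriv F ((σ : ℂ) + v * I) / F ((σ : ℂ) + v * I)).re) volume a b :=
    fun {F} hF hF0 => ContinuousOn.intervalIntegrable fun v hv =>
      (Complex.continuous_re.continuousAt.comp' ((continuousAt_logDeriv isOpen_aDomain hF
        (hmem v hv) (hF0 v hv)).comp' (f := fun u : ℝ => (σ : ℂ) + u * I)
          (by fun_prop))).continuousWithinAt
  rw [← intervalIntegral.integral_sub (hc differentiableOn_derivZeta fun v hv => (h0 v hv).2)
    (hc differentiableOn_zeta fun v hv => (h0 v hv).1)]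
  refine le_trans (le_of_eq ?_) hb
  congr 1
  refine intervalIntegral.integral_congr fun v hv => ?_
  obtain ⟨z1, z2⟩ := h0 v hv
  obtain ⟨s, hs⟩ : ∃ s : ℂ, s = (σ : ℂ) + v * I := ⟨_, rfl⟩
  rw [← hs] at z1 z2
  simp only [← hs, ← sub_re]
  congr 1
  have hsd : s ∈ aDomain := hs ▸ hmem v hv
  have hq :=
    ((differentiableOn_derivZeta.differentiableAt (isOpen_aDomain.mem_nhds hsd)).hasDerivAt.div
      (differentiableOn_zeta.differentiableAt (isOpen_aDomain.mem_nhds hsd)).hasDerivAt z1).fun_neg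
  rw [show deriv (fun x => -zetaLog x) s = _ from hq.deriv, zetaLog]
  field_simp

/-- **The right side.** -/
theorem side_right {a b : ℝ} :
    |(∫ v in a..b, (deriv (deriv riemannZeta) (((10 : ℝ) : ℂ) + v * I) /
        deriv riemannZeta (((10 : ℝ) : ℂ) + v * I)).re) + (b - a) * Real.log 2| ≤ 2 * π ∧
    |∫ v in a..b, (deriv riemannZeta (((10 : ℝ) : ℂ) + v * I) /
        riemannZeta (((10 : ℝ) : ℂ) + v * I)).re| ≤ 2 * π := by
  obtain ⟨U, hU⟩ : ∃ U : Set ℂ, U = {s | 4 < s.re} := ⟨_, rfl⟩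
  have hUo : IsOpen U := hU ▸ isOpen_lt continuous_const continuous_re
  have hne1 : ∀ s ∈ U, s ≠ 1 := fun s hs h => by
    rw [hU, Set.mem_ofPred_eq, h, one_re] at hs
    norm_num at hs
  have hzd : DifferentiableOn ℂ riemannZeta U := fun s hs =>
    (differentiableAt_riemannZeta (hne1 s hs)).differentiableWithinAt
  have hnd : DifferentiableOn ℂ dzNorm U := fun s hs => by
    unfold dzNorm
    exact ((((differentiableAt_id.const_cpow (Or.inl two_ne_zero)).mul
      (analyticAt_zeta (hne1 s hs)).deriv.differentiableAt).neg).div_const _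
      ).differentiableWithinAt
  have hmem : ∀ v : ℝ, ((10 : ℝ) : ℂ) + v * I ∈ U := fun v => by
    rw [hU, Set.mem_ofPred_eq]; simp; norm_num
  have h1 := abs_arg_edge_le hUo hnd (σ := 10) (a := a) (b := b) fun v _ =>
    ⟨hmem v, re_dzNorm_pos (by simp)⟩
  refine ⟨le_trans (le_of_eq ?_) h1, abs_arg_edge_le hUo hzd (σ := 10) (a := a) (b := b)
    fun v _ => ⟨hmem v, lt_of_lt_of_le one_half_pos (re_zeta_pos (by simp; norm_num))⟩⟩
  have hd0 : ∀ v : ℝ, deriv riemannZeta (((10 : ℝ) : ℂ) + v * I) ≠ 0 := fun v =>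
    deriv_zeta_ne_zero_right (by simp)
  have hc : ContinuousOn (fun v : ℝ => (deriv (deriv riemannZeta) (((10 : ℝ) : ℂ) + v * I) /
      deriv riemannZeta (((10 : ℝ) : ℂ) + v * I)).re) (uIcc a b) := fun v _ =>
    (Complex.continuous_re.continuousAt.comp' (((analyticAt_zeta (hne1 _ (hmem v))).deriv.deriv
      ).continuousAt.div (analyticAt_zeta (hne1 _ (hmem v))).deriv.continuousAt (hd0 v) |>.comp'
        (f := fun u : ℝ => ((10 : ℝ) : ℂ) + u * I) (by fun_prop))).continuousWithinAt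
  rw [← smul_eq_mul, ← intervalIntegral.integral_const, ← intervalIntegral.integral_add
    hc.intervalIntegrable intervalIntegrable_const]
  congr 1
  refine intervalIntegral.integral_congr fun v _ => ?_
  obtain ⟨s, hs⟩ : ∃ s : ℂ, s = ((10 : ℝ) : ℂ) + v * I := ⟨_, rfl⟩
  simp only [← hs]
  have hl0 : (Real.log 2 : ℂ) ≠ 0 := ofReal_ne_zero.2 (Real.log_pos one_lt_two).ne'
  have h2 : (2 : ℂ) ^ s ≠ 0 := (Complex.cpow_ne_zero_iff).2 (Or.inl two_ne_zero)
  have hd := ((((hasDerivAt_id' s).const_cpow (c := (2 : ℂ)) (Or.inl two_ne_zero)).mul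
    (analyticAt_zeta (hne1 s (hs ▸ hmem v))).deriv.differentiableAt.hasDerivAt).fun_neg.div_const
      (Real.log 2 : ℂ))
  have hds : deriv riemannZeta s ≠ 0 := hs ▸ hd0 v
  refine Eq.trans ((show ∀ z : ℂ, z.re + Real.log 2 = (z + (Real.log 2 : ℂ)).re from
    fun z => by rw [add_re, ofReal_re]) _) ?_
  rw [show deriv dzNorm s = _ from hd.deriv, dzNorm]
  congr 1
  rw [Complex.ofReal_log zero_le_two] at hl0 ⊢
  push_cast at hl0 ⊢
  field_simp
  ring

end FA.DerivZetaZeros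

end
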