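import Fermat.Agent.LindelofZeros.Poisson
import Fermat.Agent.APoints.Reflect

/-!
# The sign of `re (ζ'/ζ)`

Away from the real axis `ζ'/ζ = ξ'/ξ - 1/s - 1/(s-1) - Γℝ'/Γℝ`. So at great height its real part
is negative on `re s ≤ 0`, just left of the critical line, on the line away from the zeros, and,
under the Riemann hypothesis, on all of `re s < 1/2`.
-/

set_option autoImplicit false

noncomputable section

namespace FA.DerivZetaZeros

open Complex Filter Topology Set FA.RiemannMangoldt FA.LindelofZeros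
open FA.Levinson (gammaLog gammaLog_add_two gammaℝ_ne_zero differentiableAt_gammaℝ
  gammaℝ_mul_zeta_one_sub analyticAt_gammaLog analyticAt_zeta)
open scoped Real ComplexConjugate

/-- `ζ'/ζ`. -/
def zetaLog (s : ℂ) : ℂ := deriv riemannZeta s / riemannZeta s

/-- The height from which the signs are claimed. -/
def dzBase : ℝ := Real.exp 50

theorem le_dzBase : (51 : ℝ) ≤ dzBase := by
  have := Real.add_one_le_exp (50 : ℝ)
  rw [dzBase]
  linarith

theorem le_half_log {t : ℝ} (ht : dzBase ≤ t) : 20 ≤ Real.log (t / (2 * π)) / 2 := by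
  have h0 : 0 < t := lt_of_lt_of_le (Real.exp_pos _) ht
  have h1 : 50 ≤ Real.log t := (Real.le_log_iff_exp_le h0).2 ht
  rw [Real.log_div h0.ne' (by positivity)]
  have h2 := Real.log_le_sub_one_of_pos (show 0 < 2 * π by positivity)
  linarith [Real.pi_lt_d2]

theorem ne_one_of_im {s : ℂ} (hs : s.im ≠ 0) : s ≠ 1 := fun h => hs (by rw [h, one_im])

theorem zeta_logDeriv_reflect {s : ℂ} (hs : s.im ≠ 0) (hz : riemannZeta (1 - s) ≠ 0) :
    riemannZeta s ≠ 0 ∧ zetaLog s + gammaLog s = -(zetaLog (1 - s) + gammaLog (1 - s)) := by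
  have hs' : (1 - s).im ≠ 0 := by simpa using hs
  have g1 := gammaℝ_ne_zero hs
  have g2 := gammaℝ_ne_zero hs'
  have h := gammaℝ_mul_zeta_one_sub hs
  have hz0 : riemannZeta s ≠ 0 := fun h0 => mul_ne_zero g2 hz (by rw [h, h0, mul_zero])
  refine ⟨hz0, ?_⟩
  have hl := ((differentiableAt_gammaℝ g2).hasDerivAt.mul
    (differentiableAt_riemannZeta (ne_one_of_im hs')).hasDerivAt).comp s
      ((hasDerivAt_id' s).const_sub 1)
  have hr := (differentiableAt_gammaℝ g1).hasDerivAt.mul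
    (differentiableAt_riemannZeta (ne_one_of_im hs)).hasDerivAt
  have he : ((Gammaℝ * riemannZeta) ∘ fun z : ℂ => 1 - z) =ᶠ[𝓝 s] (Gammaℝ * riemannZeta) := by
    filter_upwards [FA.Levinson.isOpen_im_ne.mem_nhds hs] with z hz
    exact gammaℝ_mul_zeta_one_sub hz
  have e := (hl.congr_of_eventuallyEq he.symm).unique hr
  rw [zetaLog, zetaLog, gammaLog, gammaLog]
  field_simp
  linear_combination (-(Gammaℝ (1 - s) * riemannZeta (1 - s))) * e -
    (deriv Gammaℝ (1 - s) * riemannZeta (1 - s) +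
      Gammaℝ (1 - s) * deriv riemannZeta (1 - s)) * h

/-- **The formula for `ζ'/ζ`.** -/
theorem zetaLog_eq {s : ℂ} (hs : s.im ≠ 0) (hx : xiFn s ≠ 0) :
    riemannZeta s ≠ 0 ∧ zetaLog s = xiLogDeriv s - s⁻¹ - (s - 1)⁻¹ - gammaLog s := by
  rcases lt_or_ge 0 s.re with h | h
  · have hz : riemannZeta s ≠ 0 := fun h0 => hx ((xiFn_eq_zero_iff h (ne_one_of_im hs)).2 h0)
    refine ⟨hz, ?_⟩
    rw [xiLogDeriv_eq h (ne_one_of_im hs) hz, zetaLog, gammaLog]
    ring
  · have h' : 1 ≤ (1 - s).re := by simp; linarith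
    have hs' : (1 - s).im ≠ 0 := by simpa using hs
    have hz' := riemannZeta_ne_zero_of_one_le_re h'
    obtain ⟨hz, he⟩ := zeta_logDeriv_reflect hs hz'
    refine ⟨hz, ?_⟩
    have e := xiLogDeriv_eq (s := 1 - s) (by linarith) (ne_one_of_im hs') hz'
    rw [xiLogDeriv_one_sub] at e
    have e2 : (1 - s - 1)⁻¹ = -s⁻¹ := by rw [show 1 - s - 1 = -s by ring, inv_neg]
    have e3 : (1 - s)⁻¹ = -(s - 1)⁻¹ := by rw [← inv_neg, neg_sub]
    rw [e2, e3] at e
    simp only [zetaLog, gammaLog] at he ⊢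
    linear_combination he + e

/-- A point that is no zero of `ξ` has weight `0`. -/
theorem zeroWeight_eq_zero {ρ : ℂ} (h : xiFn ρ ≠ 0) : FA.ExplicitFormula.zeroWeight ρ = 0 := by
  rw [FA.ExplicitFormula.zeroWeight, analyticOrderNatAt,
    (differentiable_xiFn.analyticAt ρ).analyticOrderAt_eq_zero.2 h, ENat.toNat_zero]

/-- **Left of every zero `re (ξ'/ξ)` is not positive.** -/
theorem re_xiLogDeriv_nonpos {σ t : ℝ} (hx : xiFn ((σ : ℂ) + t * I) ≠ 0)
    (h : ∀ ρ, xiFn ρ = 0 → σ ≤ ρ.re) : (xiLogDeriv ((σ : ℂ) + t * I)).re ≤ 0 := by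
  refine hasSum_le (fun ρ => ?_) (hasSum_lineTerm hx) hasSum_zero
  by_cases hρ : xiFn ρ = 0
  · exact mul_nonpos_of_nonneg_of_nonpos (Nat.cast_nonneg _)
      (div_nonpos_of_nonpos_of_nonneg (by linarith [h ρ hρ]) (by positivity))
  · simp [lineTerm, zeroWeight_eq_zero hρ]

theorem xiFn_ne_zero_left {s : ℂ} (hs : s.re ≤ 0) : xiFn s ≠ 0 := fun h => by
  linarith [(xiFn_zero_strip h).1]

/-- Moving left by even steps only increases `re (Γℝ'/Γℝ)` on `re s ≤ 0`. -/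
theorem re_gammaLog_left {σ t : ℝ} (hσ : σ ≤ 5) (ht : dzBase ≤ t) :
    Real.log (t / (2 * π)) / 2 - 14 ≤ (gammaLog ((σ : ℂ) + t * I)).re := by
  have ht4 : 4 ≤ t := by linarith [le_dzBase]
  obtain ⟨n, hn⟩ := exists_nat_gt ((-4 - σ) / 2)
  have key : ∀ (k : ℕ) (u : ℝ), u ≤ 5 → -4 - 2 * k ≤ u →
      Real.log (t / (2 * π)) / 2 - 14 ≤ (gammaLog ((u : ℂ) + t * I)).re := by
    intro k
    induction k with
    | zero =>
      intro u h1 h2
      push_cast at h2
      linarith [(abs_le.1 (FA.APoints.abs_re_gammaLog_sub_le (u := u) (by linarith) h1 ht4)).1]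
    | succ k ih =>
      intro u h1 h2
      push_cast at h2
      rcases le_or_gt (-4) u with h | h
      · linarith [(abs_le.1 (FA.APoints.abs_re_gammaLog_sub_le h h1 ht4)).1]
      · have e := congrArg Complex.re (gammaLog_add_two (s := (u : ℂ) + t * I)
          (by simp; linarith))
        rw [show (u : ℂ) + t * I + 2 = ((u + 2 : ℝ) : ℂ) + t * I by push_cast; ring, add_re] at e
        have h3 : (1 / ((u : ℂ) + t * I)).re ≤ 0 := by
          rw [one_div, inv_re]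
          exact div_nonpos_of_nonpos_of_nonneg (by simp; linarith) (normSq_nonneg _)
        linarith [ih (u + 2) (by linarith) (by linarith)]
  exact key n σ hσ (by rw [div_lt_iff₀ two_pos] at hn; linarith)

/-- `|re (1/s)|` is small at great height. -/
theorem abs_re_inv_le {s : ℂ} (hs : 1 ≤ |s.im|) : |(s⁻¹).re| ≤ 1 := by
  refine (abs_re_le_norm _).trans ?_
  rw [norm_inv]
  exact inv_le_one_of_one_le₀ (hs.trans (abs_im_le_norm s))

/-- **`re (ζ'/ζ) < 0` where `re (ξ'/ξ) ≤ 0`.** -/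
theorem re_zetaLog_neg {σ t : ℝ} (hσ : σ ≤ 5) (ht : dzBase ≤ t)
    (hx : xiFn ((σ : ℂ) + t * I) ≠ 0) (hxi : (xiLogDeriv ((σ : ℂ) + t * I)).re ≤ 0) :
    riemannZeta ((σ : ℂ) + t * I) ≠ 0 ∧ (zetaLog ((σ : ℂ) + t * I)).re < 0 := by
  have hb := le_dzBase
  have ha : 1 ≤ |t| := by rw [abs_of_pos] <;> linarith
  obtain ⟨hz, he⟩ := zetaLog_eq (s := (σ : ℂ) + t * I) (by simp; linarith) hx
  refine ⟨hz, ?_⟩
  rw [he]
  have h1 := abs_le.1 (abs_re_inv_le (s := (σ : ℂ) + t * I) (by simpa using ha))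
  have h2 := abs_le.1 (abs_re_inv_le (s := (σ : ℂ) + t * I - 1) (by simpa using ha))
  simp only [sub_re]
  linarith [re_gammaLog_left hσ ht, le_half_log ht]

/-- **The left edge.** -/
theorem re_zetaLog_neg_left {σ t : ℝ} (hσ : σ ≤ 0) (ht : dzBase ≤ t) :
    riemannZeta ((σ : ℂ) + t * I) ≠ 0 ∧ (zetaLog ((σ : ℂ) + t * I)).re < 0 := by
  have hx : xiFn ((σ : ℂ) + t * I) ≠ 0 := xiFn_ne_zero_left (by simpa using hσ)
  exact re_zetaLog_neg (by linarith) ht hx
    (re_xiLogDeriv_nonpos hx fun ρ hρ => hσ.trans (xiFn_zero_strip hρ).1.le)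

theorem re_xiLogDeriv_half {t : ℝ} :
    (xiLogDeriv (((1 / 2 : ℝ) : ℂ) + t * I)).re = 0 := by
  have h : 1 - (((1 / 2 : ℝ) : ℂ) + t * I) = conj (((1 / 2 : ℝ) : ℂ) + t * I) :=
    Complex.ext (by simp; norm_num) (by simp)
  have hc : ∀ s : ℂ, xiLogDeriv (conj s) = conj (xiLogDeriv s) := fun s => by
    have h1 := congrFun (deriv_conj_conj (𝕜 := ℂ) (f := xiFn)) (conj s)
    rw [show conj ∘ xiFn ∘ conj = xiFn from funext fun z => by
      simp [FA.LiCriterion.xiFn_conj]] at h1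
    rw [xiLogDeriv, xiLogDeriv, show deriv xiFn (conj s) = conj (deriv xiFn s) by simpa using h1,
      FA.LiCriterion.xiFn_conj, map_div₀]
  have h2 := congrArg Complex.re (xiLogDeriv_one_sub (((1 / 2 : ℝ) : ℂ) + t * I))
  rw [h, hc, conj_re, neg_re] at h2
  linarith

/-- **`ζ'` vanishes on the line only at zeros of `ζ`.** -/
theorem zeta_eq_zero_of_deriv {t : ℝ} (ht : dzBase ≤ t)
    (h : deriv riemannZeta (((1 / 2 : ℝ) : ℂ) + t * I) = 0) :
    riemannZeta (((1 / 2 : ℝ) : ℂ) + t * I) = 0 := by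
  by_contra hz
  have him : ((((1 / 2 : ℝ) : ℂ) + t * I)).im ≠ 0 := by
    simp; linarith [le_dzBase]
  have hx : xiFn (((1 / 2 : ℝ) : ℂ) + t * I) ≠ 0 := fun h0 =>
    hz ((xiFn_eq_zero_iff (by simp) (ne_one_of_im him)).1 h0)
  have h1 := (re_zetaLog_neg (by norm_num) ht hx re_xiLogDeriv_half.le).2
  rw [zetaLog, h, zero_div, zero_re] at h1
  exact lt_irrefl _ h1

/-- **Just left of the line at a given height.** -/
theorem eventually_left_of_point {t₀ : ℝ} (ht : dzBase ≤ t₀) :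
    ∀ᶠ p : ℝ × ℝ in 𝓝 (0, t₀), 0 < p.1 →
      xiFn (((1 / 2 - p.1 : ℝ) : ℂ) + p.2 * I) ≠ 0 ∧
        (zetaLog (((1 / 2 - p.1 : ℝ) : ℂ) + p.2 * I)).re < 0 := by
  have hb := le_dzBase
  obtain ⟨ρ, hρ⟩ : ∃ ρ, ρ = ((1 / 2 : ℝ) : ℂ) + t₀ * I := ⟨_, rfl⟩
  have hρi : ρ.im = t₀ := by simp [hρ]
  have hρi0 : ρ.im ≠ 0 := by rw [hρi]; linarith
  have han := differentiable_xiFn.analyticAt ρ
  have htop : analyticOrderAt xiFn ρ ≠ ⊤ := fun h => by
    have := (analyticOnNhd_univ_iff_differentiable.2 differentiable_xiFn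
      ).eqOn_zero_of_preconnected_of_eventuallyEq_zero isPreconnected_univ (mem_univ ρ)
      (analyticOrderAt_eq_top.1 h) (mem_univ (2 : ℂ))
    exact xiFn_ne_zero_of_one_le (s := 2) (by norm_num) this
  obtain ⟨m, hm⟩ := ENat.ne_top_iff_exists.1 htop
  obtain ⟨g, hg, hg0, he⟩ := han.analyticOrderAt_eq_natCast.1 hm.symm
  obtain ⟨E, hE⟩ : ∃ E : ℂ → ℂ,
      E = fun s => deriv g s / g s - s⁻¹ - (s - 1)⁻¹ - gammaLog s := ⟨_, rfl⟩
  obtain ⟨he2, hgev⟩ : (∀ᶠ s in 𝓝 ρ, ∀ᶠ z in 𝓝 s, xiFn z = (z - ρ) ^ m • g z) ∧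
      ∀ᶠ s in 𝓝 ρ, g s ≠ 0 ∧ DifferentiableAt ℂ g s :=
    ⟨he.eventually_nhds, (hg.continuousAt.eventually_ne hg0).and
      (hg.eventually_analyticAt.mono fun z hz => hz.differentiableAt)⟩
  have hlog : ∀ᶠ s in 𝓝 ρ, s ≠ ρ → xiFn s ≠ 0 ∧
      xiLogDeriv s = (m : ℂ) * (s - ρ)⁻¹ + deriv g s / g s := by
    filter_upwards [he2, hgev] with s h1 h2 hne
    have h0 := sub_ne_zero.2 hne
    have hval := h1.self_of_nhds
    rw [smul_eq_mul] at hval
    have hd : deriv xiFn s = (m : ℂ) * (s - ρ) ^ (m - 1) * g s + (s - ρ) ^ m * deriv g s := by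
      rw [Filter.EventuallyEq.deriv_eq (f₁ := xiFn) (f := fun z => (z - ρ) ^ m * g z)
        (h1.mono fun z hz => hz.trans (smul_eq_mul _ _))]
      refine ((((hasDerivAt_id' s).sub_const ρ).pow m).mul h2.2.hasDerivAt).deriv.trans ?_
      simp
    refine ⟨hval ▸ mul_ne_zero (pow_ne_zero _ h0) h2.1, ?_⟩
    rw [xiLogDeriv, hd, hval]
    have := h2.1
    cases m with
    | zero => simp
    | succ k =>
      rw [Nat.add_sub_cancel, pow_succ]
      field_simp
  have hgc : ContinuousAt (fun s => deriv g s / g s) ρ :=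
    hg.deriv.continuousAt.div hg.continuousAt hg0
  have hgre : (deriv g ρ / g ρ).re = 0 := by
    have hline : Tendsto (fun u : ℝ => ((1 / 2 : ℝ) : ℂ) + u * I) (𝓝 t₀) (𝓝 ρ) := by
      rw [hρ]
      exact (Continuous.tendsto (by fun_prop) t₀)
    refine tendsto_nhds_unique (((Complex.continuous_re.tendsto _).comp
      (hgc.tendsto.comp hline)).mono_left nhdsWithin_le_nhds) (l := 𝓝[≠] t₀) ?_
    refine tendsto_const_nhds.congr' ?_
    filter_upwards [(hline.eventually hlog).filter_mono nhdsWithin_le_nhds,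
      self_mem_nhdsWithin] with u hu hne
    have hne' : (((1 / 2 : ℝ) : ℂ) + u * I) ≠ ρ := fun h => hne (by
      have := congrArg Complex.im h
      simpa [hρ] using this)
    have := congrArg Complex.re (hu hne').2
    rw [re_xiLogDeriv_half, add_re] at this
    have h0 : ((m : ℂ) * (((1 / 2 : ℝ) : ℂ) + u * I - ρ)⁻¹).re = 0 := by
      simp [hρ, mul_re]
    simp only [Function.comp_apply]
    linarith
  have hEc : ContinuousAt E ρ := by
    rw [hE]
    refine ((hgc.sub (continuousAt_id.inv₀ ?_)).sub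
      ((continuousAt_id.sub continuousAt_const).inv₀ ?_)).sub
      (analyticAt_gammaLog hρi0).continuousAt
    · exact fun h => hρi0 (by simp only [id] at h; rw [h, zero_im])
    · exact sub_ne_zero.2 (ne_one_of_im hρi0)
  have hEneg : (E ρ).re < 0 := by
    have ha : 1 ≤ |t₀| := by rw [abs_of_pos] <;> linarith
    have h1 := abs_le.1 (abs_re_inv_le (s := ρ) (by rwa [hρi]))
    have h2 := abs_le.1 (abs_re_inv_le (s := ρ - 1) (by
      rwa [sub_im, one_im, sub_zero, hρi]))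
    have h3 := re_gammaLog_left (σ := 1 / 2) (by norm_num) ht
    rw [← hρ] at h3
    simp only [hE, sub_re]
    linarith [le_half_log ht]
  have hmap : Tendsto (fun p : ℝ × ℝ => ((1 / 2 - p.1 : ℝ) : ℂ) + p.2 * I) (𝓝 (0, t₀)) (𝓝 ρ) := by
    have := (show Continuous fun p : ℝ × ℝ => ((1 / 2 - p.1 : ℝ) : ℂ) + p.2 * I by
      fun_prop).tendsto (0, t₀)
    simpa [hρ] using this
  filter_upwards [hmap.eventually hlog,
    hmap.eventually (((Complex.continuous_re.continuousAt).comp hEc).eventually_lt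
      continuousAt_const hEneg),
    hmap.eventually ((Complex.continuous_im.continuousAt (x := ρ)).eventually_ne hρi0)]
    with p hp hpE hpi hp1
  obtain ⟨s, hs⟩ : ∃ s : ℂ, s = ((1 / 2 - p.1 : ℝ) : ℂ) + p.2 * I := ⟨_, rfl⟩
  rw [← hs] at hp hpE hpi ⊢
  have hre : (s - ρ).re = -p.1 := by simp [hs, hρ]
  obtain ⟨hx, hxi⟩ := hp fun h => by rw [h, sub_self, zero_re] at hre; linarith
  refine ⟨hx, ?_⟩
  rw [(zetaLog_eq hpi hx).2, hxi]
  have h4 : ((m : ℂ) * (s - ρ)⁻¹).re ≤ 0 := by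
    rw [mul_re, natCast_re, natCast_im, zero_mul, sub_zero, inv_re, hre]
    exact mul_nonpos_of_nonneg_of_nonpos (Nat.cast_nonneg _)
      (div_nonpos_of_nonpos_of_nonneg (by linarith) (normSq_nonneg _))
  simp only [hE, Function.comp_apply, sub_re] at hpE
  simp only [sub_re, add_re]
  linarith

/-- **`re (ζ'/ζ) < 0` on a segment just left of the line.** -/
theorem exists_left_of_segment {a b : ℝ} (ha : dzBase ≤ a) :
    ∃ ε₀ > 0, ∀ ε ∈ Ioo 0 ε₀, ∀ t ∈ Icc a b,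
      xiFn (((1 / 2 - ε : ℝ) : ℂ) + t * I) ≠ 0 ∧
        (zetaLog (((1 / 2 - ε : ℝ) : ℂ) + t * I)).re < 0 := by
  have h := (isCompact_Icc (a := a) (b := b)).eventually_forall_of_forall_eventually
    (x₀ := (0 : ℝ)) (P := fun x y => 0 < x →
      xiFn (((1 / 2 - x : ℝ) : ℂ) + y * I) ≠ 0 ∧
        (zetaLog (((1 / 2 - x : ℝ) : ℂ) + y * I)).re < 0)
    fun y hy => eventually_left_of_point (ha.trans hy.1)
  obtain ⟨ε₀, hε, hball⟩ := Metric.eventually_nhds_iff.1 h
  exact ⟨ε₀, hε, fun ε hεm t htm => hball (by simpa [abs_of_pos hεm.1] using hεm.2) t htm hεm.1⟩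

/-- **Under the Riemann hypothesis** `re (ζ'/ζ) < 0` left of the line. -/
theorem re_zetaLog_neg_of_rh (hRH : RiemannHypothesis) {σ t : ℝ} (hσ : σ < 1 / 2)
    (ht : dzBase ≤ t) :
    riemannZeta ((σ : ℂ) + t * I) ≠ 0 ∧ (zetaLog ((σ : ℂ) + t * I)).re < 0 := by
  have hhalf : ∀ ρ, xiFn ρ = 0 → ρ.re = 1 / 2 := fun ρ hρ => by
    obtain ⟨h0, h1⟩ := xiFn_zero_strip hρ
    have hne : ρ ≠ 1 := fun h => by rw [h, one_re] at h1; exact lt_irrefl _ h1
    refine hRH ρ ((xiFn_eq_zero_iff h0 hne).1 hρ) ?_ hne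
    rintro ⟨n, hn⟩
    rw [hn] at h0
    simp at h0
    linarith [(Nat.cast_nonneg n : (0 : ℝ) ≤ n)]
  have hx : xiFn ((σ : ℂ) + t * I) ≠ 0 := fun h => by
    have := hhalf _ h
    simp at this
    linarith
  exact re_zetaLog_neg (by linarith) ht hx
    (re_xiLogDeriv_nonpos hx fun ρ hρ => by rw [hhalf ρ hρ]; exact hσ.le)

end FA.DerivZetaZeros

end
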