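import Fermat.Agent.DerivZetaZeros.Basic
import Fermat.Agent.ExplicitFormula.Digamma

/-!
# All zeros of `ζ'` above the axis lie in a strip of bounded width

On the right `2^s ζ' s` is near `-log 2`. Far on the left `im (Γℝ'/Γℝ)` beats, at bounded height,
all the other imaginary parts in the logarithmic derivative of the functional equation. Hence
there are finitely many zeros of `ζ'` with `0 < im ≤ T`, and the counts are defined.
-/

set_option autoImplicit false

noncomputable section

namespace FA.DerivZetaZeros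

open Complex Filter Topology Set Metric FA.RiemannMangoldt
open FA.Levinson (gammaLog gammaLog_add_two gammaLog_eq_digamma analyticAt_zeta deriv_zeta_conj)
open FA.APoints (norm_zeta_right norm_two_cpow_neg)
open scoped Real ComplexConjugate

/-- `-2^s ζ' s / log 2`, which tends to `1` on the right. -/
def dzNorm (s : ℂ) : ℂ := -((2 : ℂ) ^ s * deriv riemannZeta s) / (Real.log 2 : ℂ)

theorem norm_zeta_sub_one_le {s : ℂ} (hs : 2 ≤ s.re) :
    ‖riemannZeta s - 1‖ ≤ 6 * (2 : ℝ) ^ (-s.re) := by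
  have h3 : (3 : ℝ) ^ (2 - s.re) ≤ 9 * (2 : ℝ) ^ (-s.re) := by
    rw [show 2 - s.re = 2 + -s.re by ring, Real.rpow_add three_pos, Real.rpow_two]
    norm_num
    exact Real.rpow_le_rpow_of_nonpos two_pos (by norm_num) (by linarith)
  have h1 := norm_le_norm_add_norm_sub' (riemannZeta s - 1) ((2 : ℂ) ^ (-s))
  rw [norm_two_cpow_neg] at h1
  have := norm_zeta_right hs
  have : (0 : ℝ) < (2 : ℝ) ^ (-s.re) := Real.rpow_pos_of_pos two_pos _
  linarith

theorem re_zeta_pos {s : ℂ} (hs : 4 ≤ s.re) : 1 / 2 ≤ (riemannZeta s).re := by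
  have h := (abs_re_le_norm _).trans (norm_zeta_sub_one_le (s := s) (by linarith))
  have h2 : (2 : ℝ) ^ (-s.re) ≤ 1 / 16 := by
    refine (Real.rpow_le_rpow_of_exponent_le one_le_two
      (show -s.re ≤ -(4 : ℕ) by push_cast; linarith)).trans ?_
    rw [Real.rpow_neg two_pos.le, Real.rpow_natCast]
    norm_num
  rw [sub_re, one_re] at h
  linarith [(abs_le.1 h).1]

theorem ne_one_of_re {s : ℂ} (hs : 1 < s.re) : s ≠ 1 := fun h => by
  rw [h, one_re] at hs
  exact lt_irrefl _ hs

theorem diffContOnCl_of_right {F : ℂ → ℂ} {s : ℂ} (hs : 3 ≤ s.re)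
    (hF : ∀ z : ℂ, 1 < z.re → DifferentiableAt ℂ F z) : DiffContOnCl ℂ F (ball s 1) := by
  refine DifferentiableOn.diffContOnCl fun z hz => ?_
  rw [closure_ball _ one_ne_zero, mem_closedBall, dist_eq_norm] at hz
  have := (abs_le.1 ((abs_re_le_norm (z - s)).trans hz)).1
  rw [sub_re] at this
  exact (hF z (by linarith)).differentiableWithinAt

theorem re_of_sphere {s z : ℂ} (hz : z ∈ sphere s 1) : s.re - 1 ≤ z.re := by
  rw [mem_sphere, dist_eq_norm] at hz
  have := (abs_le.1 ((abs_re_le_norm (z - s)).trans hz.le)).1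
  rw [sub_re] at this
  linarith

theorem norm_deriv_zeta_right {s : ℂ} (hs : 3 ≤ s.re) :
    ‖deriv riemannZeta s‖ ≤ 12 * (2 : ℝ) ^ (-s.re) ∧
      ‖deriv riemannZeta s + (Real.log 2 : ℂ) * (2 : ℂ) ^ (-s)‖ ≤
        (3 : ℝ) ^ (3 - s.re) / 2 := by
  have hd : ∀ z : ℂ, 1 < z.re → DifferentiableAt ℂ riemannZeta z := fun z hz =>
    differentiableAt_riemannZeta (ne_one_of_re hz)
  constructor
  · have h := Complex.norm_deriv_le_of_forall_mem_sphere_norm_le (C := 12 * (2 : ℝ) ^ (-s.re))
      one_pos (diffContOnCl_of_right hs (F := fun z => riemannZeta z - 1)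
        fun z hz => (hd z hz).sub_const 1) fun z hz => ?_
    · rwa [deriv_sub_const, div_one] at h
    · have := re_of_sphere hz
      refine (norm_zeta_sub_one_le (by linarith)).trans ?_
      rw [show (12 : ℝ) * (2 : ℝ) ^ (-s.re) = 6 * (2 ^ (1 : ℝ) * (2 : ℝ) ^ (-s.re)) by
        rw [Real.rpow_one]; ring, ← Real.rpow_add two_pos]
      exact mul_le_mul_of_nonneg_left
        (Real.rpow_le_rpow_of_exponent_le one_le_two (by linarith)) (by norm_num)
  · have hF : ∀ z : ℂ, 1 < z.re → HasDerivAt (fun u => riemannZeta u - 1 - (2 : ℂ) ^ (-u))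
        (deriv riemannZeta z + (Real.log 2 : ℂ) * (2 : ℂ) ^ (-z)) z := fun z hz => by
      refine (((hd z hz).hasDerivAt.sub_const 1).sub
        ((hasDerivAt_id' z).neg.const_cpow (Or.inl two_ne_zero))).congr_deriv ?_
      rw [Complex.ofReal_log zero_le_two]
      push_cast
      simp only [Pi.neg_apply]
      ring
    have h := Complex.norm_deriv_le_of_forall_mem_sphere_norm_le (C := (3 : ℝ) ^ (3 - s.re) / 2)
      one_pos (diffContOnCl_of_right hs fun z hz => (hF z hz).differentiableAt) fun z hz => ?_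
    · rwa [(hF s (by linarith)).deriv, div_one] at h
    · have := re_of_sphere hz
      refine (norm_zeta_right (by linarith)).trans ?_
      linarith [Real.rpow_le_rpow_of_exponent_le (show (1 : ℝ) ≤ 3 by norm_num)
        (show 2 - z.re ≤ 3 - s.re by linarith)]

/-- **The right edge.** -/
theorem norm_dzNorm_sub_one_le {s : ℂ} (hs : 10 ≤ s.re) : ‖dzNorm s - 1‖ ≤ 1 / 2 := by
  have hl : 0 < Real.log 2 := Real.log_pos one_lt_two
  have hl0 : (Real.log 2 : ℂ) ≠ 0 := ofReal_ne_zero.2 hl.ne'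
  have h2 : (2 : ℂ) ^ s * (2 : ℂ) ^ (-s) = 1 := by
    rw [← Complex.cpow_add _ _ two_ne_zero, add_neg_cancel, Complex.cpow_zero]
  have e : dzNorm s - 1 = -((2 : ℂ) ^ s *
      (deriv riemannZeta s + (Real.log 2 : ℂ) * (2 : ℂ) ^ (-s))) / (Real.log 2 : ℂ) := by
    rw [dzNorm]
    field_simp
    linear_combination ((Real.log 2 : ℂ)) * h2
  rw [e, norm_div, norm_neg, norm_mul, Complex.norm_real, Real.norm_of_nonneg hl.le,
    show (2 : ℂ) = ((2 : ℝ) : ℂ) by norm_num, norm_cpow_eq_rpow_re_of_pos two_pos,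
    div_le_iff₀ hl]
  refine (mul_le_mul_of_nonneg_left (norm_deriv_zeta_right (by linarith)).2
    (by positivity)).trans ?_
  rw [show (2 : ℝ) ^ s.re * ((3 : ℝ) ^ (3 - s.re) / 2) = 27 / 2 * (2 / 3 : ℝ) ^ s.re by
    rw [Real.div_rpow two_pos.le three_pos.le, Real.rpow_sub three_pos]
    norm_num
    ring]
  refine (mul_le_mul_of_nonneg_left (Real.rpow_le_rpow_of_exponent_ge (by norm_num)
    (by norm_num) hs) (by norm_num)).trans ?_
  have := Real.log_two_gt_d9
  norm_num
  linarith

theorem re_dzNorm_pos {s : ℂ} (hs : 10 ≤ s.re) : 0 < (dzNorm s).re := by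
  have h := (abs_re_le_norm _).trans (norm_dzNorm_sub_one_le hs)
  rw [sub_re, one_re] at h
  linarith [(abs_le.1 h).1]

/-- **`ζ'` has no zeros with `re s ≥ 10`.** -/
theorem deriv_zeta_ne_zero_right {s : ℂ} (hs : 10 ≤ s.re) : deriv riemannZeta s ≠ 0 := fun h => by
  have := re_dzNorm_pos hs
  simp [dzNorm, h] at this

theorem norm_zetaLog_right {s : ℂ} (hs : 4 ≤ s.re) :
    ‖zetaLog s‖ ≤ 24 * (2 : ℝ) ^ (-s.re) := by
  have h1 := re_zeta_pos hs
  have hb : 1 / 2 ≤ ‖riemannZeta s‖ := h1.trans (Complex.re_le_norm _)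
  have h0 : 0 ≤ (2 : ℝ) ^ (-s.re) := by positivity
  rw [zetaLog, norm_div, div_le_iff₀ (lt_of_lt_of_le one_half_pos hb)]
  nlinarith [(norm_deriv_zeta_right (show 3 ≤ s.re by linarith)).1]

theorem differentiableAt_zetaLog {s : ℂ} (hs : 1 < s.re) : DifferentiableAt ℂ zetaLog s :=
  ((analyticAt_zeta (ne_one_of_re hs)).deriv.div (analyticAt_zeta (ne_one_of_re hs))
    (riemannZeta_ne_zero_of_one_le_re hs.le)).differentiableAt

theorem two_rpow_neg_le {x : ℝ} (hx : 0 < x) : (2 : ℝ) ^ (-x) ≤ 2 / x := by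
  rw [Real.rpow_neg two_pos.le, inv_eq_one_div, div_le_div_iff₀ (by positivity) hx, one_mul,
    Real.rpow_def_of_pos two_pos]
  nlinarith [Real.add_one_le_exp (Real.log 2 * x), Real.log_two_gt_d9]

/-- `im (ζ'/ζ)` is small next to the height far on the right. -/
theorem abs_im_zetaLog_le {x t : ℝ} (hx : 12 ≤ x) :
    |(zetaLog ((x : ℂ) + t * I)).im| ≤ 96 / x * |t| := by
  have hreal : (zetaLog (x : ℂ)).im = 0 := by
    refine Complex.conj_eq_iff_im.1 ?_
    rw [zetaLog, map_div₀, ← deriv_zeta_conj, ← riemannZeta_conj, Complex.conj_ofReal]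
  have hbound : ∀ z : ℂ, x ≤ z.re → ‖deriv zetaLog z‖ ≤ 96 / x := fun z hz => by
    have h := Complex.norm_deriv_le_of_forall_mem_sphere_norm_le (f := zetaLog) (C := 96 / x)
      one_pos (diffContOnCl_of_right (show 3 ≤ z.re by linarith)
        fun u hu => differentiableAt_zetaLog hu) fun u hu => ?_
    · rwa [div_one] at h
    · have hu1 := re_of_sphere hu
      refine (norm_zetaLog_right (by linarith)).trans ?_
      have h2 : (2 : ℝ) ^ (-u.re) ≤ 2 * (2 : ℝ) ^ (-x) := by
        rw [show (2 : ℝ) * (2 : ℝ) ^ (-x) = (2 : ℝ) ^ (1 : ℝ) * (2 : ℝ) ^ (-x) by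
          rw [Real.rpow_one], ← Real.rpow_add two_pos]
        exact Real.rpow_le_rpow_of_exponent_le one_le_two (by linarith)
      have := two_rpow_neg_le (show 0 < x by linarith)
      calc 24 * (2 : ℝ) ^ (-u.re) ≤ 24 * (2 * (2 / x)) := by linarith
        _ = 96 / x := by ring
  have hmv := (convex_halfSpace_re_ge x).norm_image_sub_le_of_norm_deriv_le
    (f := zetaLog) (C := 96 / x) (fun z hz => differentiableAt_zetaLog (by
      linarith [show x ≤ z.re from hz])) hbound
    (x := (x : ℂ)) (y := (x : ℂ) + t * I) (show x ≤ (x : ℂ).re by simp)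
    (show x ≤ ((x : ℂ) + t * I).re by simp)
  have h := (abs_im_le_norm _).trans hmv
  rwa [sub_im, hreal, sub_zero, add_sub_cancel_left, norm_mul, norm_I, mul_one, Complex.norm_real,
    Real.norm_eq_abs] at h

/-- `im ψ z` has the sign of `im z`, and is small next to it far on the right. -/
theorem im_digamma {z : ℂ} (hz : 0 < z.re) :
    (0 ≤ z.im → 0 ≤ (deriv Complex.Gamma z / Complex.Gamma z).im) ∧
      (1 ≤ z.re → |(deriv Complex.Gamma z / Complex.Gamma z).im| ≤ 2 * |z.im| / z.re) := by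
  obtain ⟨q, hq⟩ : ∃ q : ℕ → ℝ, q = fun k : ℕ => 1 / normSq (z + ((k : ℂ) + 1)) := ⟨_, rfl⟩
  obtain ⟨v, hv⟩ : ∃ v, v = (deriv Complex.Gamma z / Complex.Gamma z).im := ⟨_, rfl⟩
  have hsum : HasSum (fun k => z.im * q k) (v - z.im / normSq z) := by
    have h := Complex.hasSum_im (FA.ExplicitFormula.hasSum_digamma hz)
    rw [add_im, inv_im, ← hv, neg_div, ← sub_eq_add_neg] at h
    refine h.congr_fun fun k => ?_
    rw [hq, sub_im, ofReal_im, inv_im]
    simp [div_eq_mul_inv]
  rw [← hv]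
  have hq0 : ∀ k, 0 ≤ q k := fun k => by rw [hq]; exact div_nonneg zero_le_one (normSq_nonneg _)
  refine ⟨fun hi => ?_, fun h1 => ?_⟩
  · have := hsum.nonneg fun k => mul_nonneg hi (hq0 k)
    have := div_nonneg hi (normSq_nonneg z)
    linarith
  · have hle : ∀ (a : ℝ) (u : ℂ), 0 < a → a ≤ u.re → 1 / normSq u ≤ 1 / (a * a) := fun a u ha hu =>
      one_div_le_one_div_of_le (mul_pos ha ha) (by rw [normSq_apply]; nlinarith [sq_nonneg u.im])
    have htail : ∀ n, ∑ k ∈ Finset.range n, q k ≤ 1 / z.re - 1 / (z.re + n) := fun n => by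
      induction n with
      | zero => simp
      | succ n ih =>
        have hn : 0 < z.re + n := by positivity
        rw [Finset.sum_range_succ]
        have h2 : q n ≤ 1 / (z.re + n) - 1 / (z.re + (n + 1 : ℕ)) := by
          rw [hq]
          refine (hle (z.re + n + 1) _ (by linarith) (by simp; linarith)).trans ?_
          push_cast
          rw [div_sub_div _ _ hn.ne' (by positivity), div_le_div_iff₀ (by positivity)
            (by positivity)]
          nlinarith
        linarith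
    have hbound : ∀ s : Finset ℕ, ∑ k ∈ s, |z.im * q k| ≤ |z.im| / z.re := fun s => by
      obtain ⟨n, hn⟩ := s.exists_nat_subset_range
      refine (Finset.sum_le_sum_of_subset_of_nonneg hn fun _ _ _ => abs_nonneg _).trans ?_
      simp only [abs_mul, abs_of_nonneg (hq0 _), ← Finset.mul_sum]
      have : 0 ≤ 1 / (z.re + n) := by positivity
      rw [div_eq_mul_one_div |z.im| z.re]
      exact mul_le_mul_of_nonneg_left (by linarith [htail n]) (abs_nonneg _)
    have habs : |v - z.im / normSq z| ≤ |z.im| / z.re := by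
      refine le_of_tendsto' hsum.abs fun s => ?_
      exact (Finset.abs_sum_le_sum_abs _ _).trans (hbound s)
    have h3 : |z.im / normSq z| ≤ |z.im| / z.re := by
      rw [abs_div, abs_of_nonneg (normSq_nonneg z)]
      refine div_le_div_of_nonneg_left (abs_nonneg _) hz ?_
      rw [normSq_apply]
      nlinarith [sq_nonneg z.im]
    have := abs_sub_abs_le_abs_sub v (z.im / normSq z)
    linarith [show 2 * |z.im| / z.re = |z.im| / z.re + |z.im| / z.re by ring]

theorem im_gammaLog_right {s : ℂ} (hs : 0 < s.re) :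
    (0 ≤ s.im → 0 ≤ (gammaLog s).im) ∧
      (2 ≤ s.re → |(gammaLog s).im| ≤ |s.im| / s.re) := by
  have hr : (s / 2).re = s.re / 2 := by simp
  have hi : (s / 2).im = s.im / 2 := by simp
  have hd := im_digamma (z := s / 2) (by rw [hr]; linarith)
  rw [hr, hi] at hd
  have e : (gammaLog s).im =
      (deriv Complex.Gamma (s / 2) / Complex.Gamma (s / 2)).im / 2 := by
    rw [gammaLog_eq_digamma hs, add_im]
    simp
  refine ⟨fun h => by rw [e]; linarith [hd.1 (by linarith)], fun h => ?_⟩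
  have h2 := hd.2 (by linarith)
  rw [e, abs_div, abs_two]
  rw [abs_div, abs_two, show 2 * (|s.im| / 2) / (s.re / 2) = 2 * (|s.im| / s.re) by
    field_simp] at h2
  linarith

/-- `im (Γℝ'/Γℝ)` on the left half plane. -/
theorem im_gammaLog_left {u t : ℝ} (hu : u ≤ 0) (ht : 0 < t) :
    t / (4 + t ^ 2) ≤ (gammaLog ((u : ℂ) + t * I)).im := by
  obtain ⟨n, hn⟩ := exists_nat_gt (-u / 2)
  have key : ∀ (k : ℕ) (v : ℝ), v ≤ 0 → -(2 * k : ℝ) < v →
      t / (4 + t ^ 2) ≤ (gammaLog ((v : ℂ) + t * I)).im := by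
    intro k
    induction k with
    | zero => intro v h1 h2; simp at h2; linarith
    | succ k ih =>
      intro v h1 h2
      push_cast at h2
      have e := congrArg Complex.im (gammaLog_add_two (s := (v : ℂ) + t * I) (by simp; linarith))
      rw [show (v : ℂ) + t * I + 2 = ((v + 2 : ℝ) : ℂ) + t * I by push_cast; ring, add_im, one_div,
        inv_im] at e
      have hns : normSq ((v : ℂ) + t * I) = v ^ 2 + t ^ 2 := by
        rw [normSq_apply]; simp; ring
      rw [hns, show ((v : ℂ) + t * I).im = t by simp, neg_div] at e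
      have hnn : 0 ≤ t / (v ^ 2 + t ^ 2) := by positivity
      rcases lt_or_ge (-2) v with h | h
      · have h3 := (im_gammaLog_right (s := ((v + 2 : ℝ) : ℂ) + t * I)
          (by simp; linarith)).1 (by simp; linarith)
        have h4 : t / (4 + t ^ 2) ≤ t / (v ^ 2 + t ^ 2) :=
          div_le_div_of_nonneg_left ht.le (by positivity) (by nlinarith)
        linarith
      · linarith [ih (v + 2) (by linarith) (by linarith)]
  exact key n u hu (by rw [div_lt_iff₀ two_pos] at hn; linarith)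

/-- The left end of the strip. -/
def dzLeft : ℝ := 100 * (4 + dzBase ^ 2)

theorem le_dzLeft : 400 ≤ dzLeft := by
  rw [dzLeft]
  nlinarith [sq_nonneg dzBase]

/-- **The zeros of `ζ'` above the axis.** -/
theorem deriv_zero_re {s : ℂ} (h : deriv riemannZeta s = 0) (hs : 0 < s.im) :
    -dzLeft ≤ s.re ∧ s.re ≤ 10 ∧ (dzBase ≤ s.im → 0 < s.re) := by
  have hL := le_dzLeft
  have hneg : dzBase ≤ s.im → 0 < s.re := fun ht => by
    by_contra hc
    obtain ⟨-, h2⟩ := re_zetaLog_neg_left (not_lt.1 hc) ht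
    rw [re_add_im, zetaLog, h, zero_div, zero_re] at h2
    exact lt_irrefl _ h2
  refine ⟨?_, ?_, hneg⟩
  · by_contra hc
    rw [not_le] at hc
    rcases le_or_gt dzBase s.im with ht | ht
    · linarith [hneg ht]
    obtain ⟨-, he⟩ := zeta_logDeriv_reflect hs.ne'
      (riemannZeta_ne_zero_of_one_le_re (show 1 ≤ (1 - s).re by simp; linarith))
    rw [show zetaLog s = 0 by rw [zetaLog, h, zero_div], zero_add] at he
    have e := congrArg Complex.im he
    rw [neg_im, add_im] at e
    obtain ⟨x, hx⟩ : ∃ x, x = 1 - s.re := ⟨_, rfl⟩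
    have h1 := abs_im_zetaLog_le (x := x) (t := -s.im) (by linarith)
    have h2 := (im_gammaLog_right (s := 1 - s) (by simp; linarith)).2 (by simp; linarith)
    have h3 := im_gammaLog_left (u := s.re) (t := s.im) (by linarith) hs
    rw [re_add_im] at h3
    rw [show (x : ℂ) + ((-s.im : ℝ) : ℂ) * I = 1 - s from Complex.ext (by simp [hx]) (by simp),
      abs_neg, abs_of_pos hs] at h1
    rw [show (1 - s).im = -s.im by simp, show (1 - s).re = x by simp [hx], abs_neg,
      abs_of_pos hs] at h2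
    have hx0 : 0 < x := by linarith
    have h4 : s.im / (4 + s.im ^ 2) ≤ 97 * (s.im / x) := by
      rw [show 96 / x * s.im = 96 * (s.im / x) by ring] at h1
      linarith [(abs_le.1 h1).1, (abs_le.1 h2).1]
    rw [← mul_div_assoc, div_le_div_iff₀ (by positivity) hx0] at h4
    have h5 : s.im ^ 2 ≤ dzBase ^ 2 := pow_le_pow_left₀ hs.le ht.le 2
    have h6 : x ≤ 97 * (4 + s.im ^ 2) := by nlinarith
    rw [dzLeft] at hc
    nlinarith [sq_nonneg dzBase]
  · by_contra hc
    exact deriv_zeta_ne_zero_right (le_of_lt (not_le.1 hc)) h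

/-- The zeros of `ζ'` with `0 < im ≤ T`. -/
def derivZeros (T : ℝ) : Set ℂ := {w | deriv riemannZeta w = 0 ∧ 0 < w.im ∧ w.im ≤ T}

theorem finite_derivZeros (T : ℝ) : (derivZeros T).Finite := by
  obtain ⟨g, hg⟩ : ∃ g : ℂ → ℂ,
      g = fun s => (s - 1) * deriv riemannZeta₁ s - riemannZeta₁ s := ⟨_, rfl⟩
  have han : ∀ s : ℂ, AnalyticAt ℂ riemannZeta₁ s := fun s =>
    differentiable_riemannZeta₁.analyticAt s
  have hgd : ∀ s : ℂ, AnalyticAt ℂ g s := fun s => hg ▸
    ((analyticAt_id.sub analyticAt_const).mul (han s).deriv).sub (han s)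
  have hne : ∀ z : ℂ, analyticOrderAt g z ≠ ⊤ := fun z h => by
    have := (show AnalyticOnNhd ℂ g univ from fun w _ => hgd w
      ).eqOn_zero_of_preconnected_of_eventuallyEq_zero
      isPreconnected_univ (mem_univ z) (analyticOrderAt_eq_top.1 h) (mem_univ (1 : ℂ))
    simp [hg, riemannZeta₁_one] at this
  refine (FA.Levinson.finite_zeros_compact isOpen_univ
    (K := Icc (-dzLeft) 10 ×ℂ Icc 0 T) (isCompact_Icc.reProdIm isCompact_Icc) (subset_univ _)
    (fun z _ => (hgd z).differentiableAt.differentiableWithinAt) fun z _ => hne z).subset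
    fun w hw => ?_
  obtain ⟨h1, h2, h3⟩ := hw
  obtain ⟨h4, h5, -⟩ := deriv_zero_re h1 h2
  refine ⟨mem_reProdIm.2 ⟨⟨h4, h5⟩, h2.le, h3⟩, ?_⟩
  have hw1 := ne_one_of_im h2.ne'
  have hd : deriv riemannZeta w = g w / (w - 1) ^ 2 := by
    have he : riemannZeta =ᶠ[𝓝 w] fun z => riemannZeta₁ z / (z - 1) := by
      filter_upwards [isOpen_ne.mem_nhds hw1] with z hz
      rw [riemannZeta_eq_inv_sub_mul hz, inv_mul_eq_div]
    rw [he.deriv_eq, hg]
    refine ((differentiable_riemannZeta₁ w).hasDerivAt.div ((hasDerivAt_id' w).sub_const 1)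
      (sub_ne_zero.2 hw1)).deriv.trans ?_
    ring
  rw [hd, div_eq_zero_iff] at h1
  exact h1.resolve_right (pow_ne_zero _ (sub_ne_zero.2 hw1))

/-- The zeros of `ζ'` with `0 < im ≤ T`, with multiplicity. -/
def derivZeroCount (T : ℝ) : ℕ :=
  ∑ w ∈ (finite_derivZeros T).toFinset, analyticOrderNatAt (deriv riemannZeta) w

/-- Those left of the critical line. -/
def derivLeftZeros (T : ℝ) : ℕ :=
  ∑ w ∈ (finite_derivZeros T).toFinset.filter (fun w => w.re < 1 / 2),
    analyticOrderNatAt (deriv riemannZeta) w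

/-- The zeros of `ζ` with `0 < im ≤ T` left of the critical line. -/
def zetaLeftZeros (T : ℝ) : ℕ :=
  ∑ ρ ∈ (finite_zetaZeros T).toFinset.filter (fun ρ => ρ.re < 1 / 2),
    analyticOrderNatAt riemannZeta ρ

end FA.DerivZetaZeros

end
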