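import Fermat.Agent.DerivZetaZeros.Winding
import Fermat.Agent.LevinsonThird.Count

/-!
# The theorems of Levinson–Montgomery, Speiser and Berndt

The winding of `ζ'/ζ` round `[-1, 1/2 - ε] × [a, T]` is `O (log T)` and round `[-1, 10] × [a, T]`
it is `-(T - a) log 2 + O (log T)`.
-/

set_option autoImplicit false

noncomputable section

namespace FA.DerivZetaZeros

open Complex Filter MeasureTheory Set Topology
open FA.RiemannMangoldt (zeroCount zetaZeros finite_zetaZeros mem_zetaZeros_iff mainTerm)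
open FA.APoints (aDomain isOpen_aDomain convex_aDomain)
open scoped Real

theorem order_pos {f : ℂ → ℂ} (hf : DifferentiableOn ℂ f aDomain) {w : ℂ} (hw : 0 < w.im)
    (h10 : f w ≠ 0) {z : ℂ} (hz : 0 < z.im) (h0 : f z = 0) : 1 ≤ analyticOrderNatAt f z := by
  have han := hf.analyticOnNhd isOpen_aDomain
  have htop : analyticOrderAt f z ≠ ⊤ := fun h => h10
    (han.eqOn_zero_of_preconnected_of_eventuallyEq_zero convex_aDomain.isPreconnected hz
      (analyticOrderAt_eq_top.1 h) hw)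
  rw [Nat.one_le_iff_ne_zero, analyticOrderNatAt]
  intro h
  rcases ENat.toNat_eq_zero.1 h with h | h
  · exact (han z hz).analyticOrderAt_ne_zero.2 h0 h
  · exact htop h

/-- The four sides of the rectangle `[-1, b] × [a, T]`. -/
def rimSum (f : ℂ → ℂ) (b a T : ℝ) : ℝ :=
  (∫ v in a..T, (deriv f ((b : ℂ) + v * I) / f ((b : ℂ) + v * I)).re) -
    (∫ v in a..T, (deriv f (((-1 : ℝ) : ℂ) + v * I) / f (((-1 : ℝ) : ℂ) + v * I)).re) +
  (∫ u in (-1 : ℝ)..b, (deriv f ((u : ℂ) + a * I) / f ((u : ℂ) + a * I)).im) -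
    ∫ u in (-1 : ℝ)..b, (deriv f ((u : ℂ) + T * I) / f ((u : ℂ) + T * I)).im

/-- **The zeros in such a rectangle.** -/
theorem box_sum {f : ℂ → ℂ} (hf : DifferentiableOn ℂ f aDomain)
    (h10 : f (((10 : ℝ) : ℂ) + I) ≠ 0) {b a T : ℝ} (ha : 0 < a) (hb : -1 < b) (haT : a < T)
    (F : Finset ℂ) (hF : ∀ z, z ∈ F ↔ f z = 0 ∧ z.re ∈ Icc (-1) b ∧ z.im ∈ Icc a T)
    (hedge : ∀ z, f z = 0 → z.re ∈ Icc (-1) b → z.im ∈ Icc a T →
      z.re ≠ -1 ∧ z.re ≠ b ∧ z.im ≠ a ∧ z.im ≠ T) :
    2 * π * ((∑ z ∈ F, analyticOrderNatAt f z : ℕ) : ℝ) = rimSum f b a T := by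
  classical
  obtain ⟨Z, hin, hord, he⟩ := rect_count hf ha hb haT fun s h1 h2 h3 h0 => by
    obtain ⟨e1, e2, e3, e4⟩ := hedge s h0 h1 h2
    tauto
  have hsum : ∑ z ∈ F, analyticOrderNatAt f z = Multiset.card Z := by
    have hFZ : F = Z.toFinset := Finset.ext fun z => by
      rw [Multiset.mem_toFinset, hF, ← Multiset.one_le_count_iff_mem]
      constructor
      · rintro ⟨h0, h1, h2⟩
        rw [← hord z h1 h2]
        exact order_pos hf (by simp) h10 (lt_of_lt_of_le ha h2.1) h0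
      · intro hc
        have hm := hin z (Multiset.one_le_count_iff_mem.1 hc)
        have h1 := Ioo_subset_Icc_self hm.1
        have h2 := Ioo_subset_Icc_self hm.2
        refine ⟨apply_eq_zero_of_analyticOrderNatAt_ne_zero ?_, h1, h2⟩
        rw [hord z h1 h2]
        omega
    rw [Finset.sum_congr rfl fun z hz => hord z ((hF z).1 hz).2.1 ((hF z).1 hz).2.2, hFZ,
      Multiset.toFinset_sum_count_eq]
  rw [hsum, rimSum]
  exact he

/-- The zeros above height `a` that a predicate picks. -/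
theorem sum_split_height {s : ℝ → Set ℂ} (hs : ∀ T, (s T).Finite)
    (hmem : ∀ a T, a ≤ T → ∀ z, (z ∈ s a ↔ z ∈ s T ∧ z.im ≤ a)) (p : ℂ → Prop) [DecidablePred p]
    (g : ℂ → ℕ) {a T : ℝ} (haT : a ≤ T) :
    ∑ z ∈ (hs T).toFinset.filter p, g z = ∑ z ∈ (hs a).toFinset.filter p, g z +
      ∑ z ∈ (hs T).toFinset.filter (fun z => p z ∧ a < z.im), g z := by
  classical
  rw [← Finset.sum_filter_add_sum_filter_not ((hs T).toFinset.filter p) (fun z => z.im ≤ a),
    Finset.filter_filter, Finset.filter_filter]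
  simp only [not_le]
  congr 1
  refine Finset.sum_congr (Finset.ext fun z => ?_) fun _ _ => rfl
  simp only [Finset.mem_filter, Set.Finite.mem_toFinset]
  rw [hmem a T haT z]
  tauto

theorem derivZeros_le {a T : ℝ} (h : a ≤ T) (z : ℂ) :
    z ∈ derivZeros a ↔ z ∈ derivZeros T ∧ z.im ≤ a :=
  ⟨fun ⟨h1, h2, h3⟩ => ⟨⟨h1, h2, h3.trans h⟩, h3⟩, fun ⟨⟨h1, h2, _⟩, h3⟩ => ⟨h1, h2, h3⟩⟩

theorem zetaZeros_le {a T : ℝ} (h : a ≤ T) (z : ℂ) :
    z ∈ zetaZeros a ↔ z ∈ zetaZeros T ∧ z.im ≤ a :=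
  ⟨fun ⟨h1, h2, h3, h4, h5⟩ => ⟨⟨h1, h2, h3, h4, h5.trans h⟩, h5⟩,
    fun ⟨⟨h1, h2, h3, h4, _⟩, h5⟩ => ⟨h1, h2, h3, h4, h5⟩⟩

/-- No zero of `ζ` or `ζ'` has this ordinate. -/
def CleanHeight (T : ℝ) : Prop :=
  ∀ z : ℂ, z.im = T → riemannZeta z ≠ 0 ∧ deriv riemannZeta z ≠ 0

theorem zero_mem_zetaZeros {z : ℂ} (h : riemannZeta z = 0) (hz : dzBase ≤ z.im) {T : ℝ}
    (hT : z.im ≤ T) : z ∈ zetaZeros T := by
  have hb := le_dzBase
  refine ⟨h, ?_, ?_, by linarith, hT⟩
  · by_contra hc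
    have := (re_zetaLog_neg_left (not_lt.1 hc) hz).1
    rw [re_add_im] at this
    exact this h
  · by_contra hc
    exact riemannZeta_ne_zero_of_one_le_re (not_lt.1 hc) h

theorem zero_mem_derivZeros {z : ℂ} (h : deriv riemannZeta z = 0) (hz : dzBase ≤ z.im) {T : ℝ}
    (hT : z.im ≤ T) : z ∈ derivZeros T ∧ 0 < z.re ∧ z.re < 10 := by
  have hb := le_dzBase
  refine ⟨⟨h, by linarith, hT⟩, (deriv_zero_re h (by linarith)).2.2 hz, ?_⟩
  by_contra hc
  exact deriv_zeta_ne_zero_right (not_lt.1 hc) h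

/-- Clean heights are dense. -/
theorem exists_clean {T : ℝ} (hT : dzBase ≤ T) : ∃ T', T < T' ∧ T' < T + 1 ∧ CleanHeight T' ∧
    derivZeros T' = derivZeros T ∧ zetaZeros T' = zetaZeros T := by
  obtain ⟨A, hA⟩ : ∃ A : Set ℝ,
      A = Complex.im '' (derivZeros (T + 1) ∪ zetaZeros (T + 1)) := ⟨_, rfl⟩
  have hAf : A.Finite := hA ▸ ((finite_derivZeros _).union (finite_zetaZeros _)).image _
  have hev : ∀ᶠ x in 𝓝[>] T, ∀ c ∈ A, c ≤ T ∨ x < c := by
    rw [hAf.eventually_all]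
    intro c _
    rcases le_or_gt c T with hc | hc
    · exact Eventually.of_forall fun _ => Or.inl hc
    · exact ((eventually_lt_nhds hc).filter_mono nhdsWithin_le_nhds).mono fun _ hx => Or.inr hx
  obtain ⟨T', ⟨hgap, hT'⟩, hgt⟩ := ((hev.and ((eventually_lt_nhds (show T < T + 1 by linarith)
    ).filter_mono nhdsWithin_le_nhds)).and self_mem_nhdsWithin).exists
  replace hgt : T < T' := hgt
  have hout : ∀ z ∈ derivZeros (T + 1) ∪ zetaZeros (T + 1), z.im ≤ T ∨ T' < z.im := fun z hz =>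
    hgap _ (hA ▸ Set.mem_image_of_mem _ hz)
  refine ⟨T', hgt, hT', fun z hz => ⟨fun h0 => ?_, fun h0 => ?_⟩, ?_, ?_⟩
  · rcases hout z (Or.inr (zero_mem_zetaZeros h0 (by linarith) (by linarith))) with h | h <;>
      linarith
  · rcases hout z (Or.inl (zero_mem_derivZeros h0 (by linarith) (by linarith)).1) with h | h <;>
      linarith
  · refine Set.ext fun z => ⟨fun hz => (derivZeros_le hgt.le z).2 ⟨hz, ?_⟩,
      fun hz => ((derivZeros_le hgt.le z).1 hz).1⟩
    have hm := ((derivZeros_le hT'.le z).1 hz)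
    exact (hout z (Or.inl hm.1)).resolve_right (not_lt.2 hm.2)
  · refine Set.ext fun z => ⟨fun hz => (zetaZeros_le hgt.le z).2 ⟨hz, ?_⟩,
      fun hz => ((zetaZeros_le hgt.le z).1 hz).1⟩
    have hm := ((zetaZeros_le hT'.le z).1 hz)
    exact (hout z (Or.inr hm.1)).resolve_right (not_lt.2 hm.2)

theorem deriv_zeta_ten_ne_zero : deriv riemannZeta (((10 : ℝ) : ℂ) + I) ≠ 0 :=
  deriv_zeta_ne_zero_right (by simp)

theorem zeta_ten_ne_zero : riemannZeta (((10 : ℝ) : ℂ) + I) ≠ 0 :=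
  riemannZeta_ne_zero_of_one_le_re (by simp)

/-- **The difference of the two sums over the sides.** -/
theorem exists_rim_diff : ∃ K, 0 ≤ K ∧ ∀ a T b : ℝ, dzBase ≤ a → a ≤ T → b ∈ Icc (-1 : ℝ) 10 →
    CleanHeight a → CleanHeight T →
    |rimSum (deriv riemannZeta) b a T - rimSum riemannZeta b a T -
      ((∫ v in a..T, (deriv (deriv riemannZeta) ((b : ℂ) + v * I) /
        deriv riemannZeta ((b : ℂ) + v * I)).re) -
      ∫ v in a..T, (deriv riemannZeta ((b : ℂ) + v * I) / riemannZeta ((b : ℂ) + v * I)).re)| ≤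
      K * Real.log T := by
  obtain ⟨K₁, hK₁, h₁⟩ := exists_hor_zeta
  obtain ⟨K₂, hK₂, h₂⟩ := exists_hor_derivZeta
  refine ⟨2 * K₁ + 2 * K₂ + 2 * π, by positivity, fun a T b ha haT hb hca hcT => ?_⟩
  have hbase := le_dzBase
  have him : ∀ (u t : ℝ), ((u : ℂ) + t * I).im = t := fun u t => by simp
  have hl : Real.log a ≤ Real.log T := Real.log_le_log (by linarith) haT
  have hl1 : 1 ≤ Real.log T := by
    rw [← Real.log_exp 1]
    exact Real.log_le_log (Real.exp_pos 1) (by linarith [Real.exp_one_lt_d9])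
  have a1 := h₁ a (by linarith) b hb fun u _ => (hca _ (him u a)).1
  have a2 := h₁ T (by linarith) b hb fun u _ => (hcT _ (him u T)).1
  have b1 := h₂ a (by linarith) b hb fun u _ => (hca _ (him u a)).2
  have b2 := h₂ T (by linarith) b hb fun u _ => (hcT _ (him u T)).2
  have s1 := side_diff (σ := -1) (show 0 < a by linarith) haT fun v hv =>
    re_zetaLog_neg_left (σ := -1) (by norm_num) (ha.trans hv.1)
  have c1 := mul_le_mul_of_nonneg_left hl hK₁
  have c2 := mul_le_mul_of_nonneg_left hl hK₂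
  have c3 := mul_le_mul_of_nonneg_left hl1 (show 0 ≤ 2 * π by positivity)
  rw [rimSum, rimSum]
  rw [abs_le] at a1 a2 b1 b2 s1 ⊢
  constructor <;> linarith

/-- **Winding round the large rectangle.** -/
theorem exists_full_diff {a : ℝ} (ha : dzBase ≤ a) (hca : CleanHeight a) :
    ∃ C, 0 ≤ C ∧ ∀ T : ℝ, a < T → CleanHeight T →
      |(derivZeroCount T : ℝ) - zeroCount T + T * Real.log 2 / (2 * π)| ≤ C * Real.log T := by
  obtain ⟨K, hK, hdiff⟩ := exists_rim_diff
  obtain ⟨D, hD⟩ : ∃ D, D = |(derivZeroCount a : ℝ) - zeroCount a| + a + 3 + K := ⟨_, rfl⟩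
  have hb := le_dzBase
  refine ⟨D, by rw [hD]; positivity [show 0 ≤ a by linarith], fun T haT hcT => ?_⟩
  classical
  have hd : derivZeroCount T = derivZeroCount a +
      ∑ z ∈ (finite_derivZeros T).toFinset.filter (fun z => True ∧ a < z.im),
        analyticOrderNatAt (deriv riemannZeta) z := by
    simpa [derivZeroCount] using sum_split_height finite_derivZeros
      (fun _ _ h => derivZeros_le h) (fun _ => True) (analyticOrderNatAt (deriv riemannZeta)) haT.le
  have hz : zeroCount T = zeroCount a +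
      ∑ z ∈ (finite_zetaZeros T).toFinset.filter (fun z => True ∧ a < z.im),
        analyticOrderNatAt riemannZeta z := by
    simpa [zeroCount] using sum_split_height finite_zetaZeros
      (fun _ _ h => zetaZeros_le h) (fun _ => True) (analyticOrderNatAt riemannZeta) haT.le
  have e1 := box_sum differentiableOn_derivZeta deriv_zeta_ten_ne_zero (b := 10) (a := a) (T := T)
    (by linarith) (by norm_num) haT
    ((finite_derivZeros T).toFinset.filter (fun z => True ∧ a < z.im)) (fun z => by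
      simp only [Finset.mem_filter, Set.Finite.mem_toFinset, true_and]
      refine ⟨fun ⟨⟨h1, _, h3⟩, h4⟩ => ?_, fun ⟨h1, _, h3⟩ => ?_⟩
      · obtain ⟨-, r1, r2⟩ := zero_mem_derivZeros h1 (ha.trans h4.le) h3
        exact ⟨h1, ⟨by linarith, r2.le⟩, h4.le, h3⟩
      · exact ⟨(zero_mem_derivZeros h1 (ha.trans h3.1) h3.2).1,
          lt_of_le_of_ne h3.1 fun e => (hca z e.symm).2 h1⟩)
    fun z h1 _ h3 => by
      obtain ⟨-, r1, r2⟩ := zero_mem_derivZeros h1 (ha.trans h3.1) h3.2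
      exact ⟨by linarith, r2.ne, fun e => (hca z e).2 h1, fun e => (hcT z e).2 h1⟩
  have e2 := box_sum differentiableOn_zeta zeta_ten_ne_zero (b := 10) (a := a) (T := T)
    (by linarith) (by norm_num) haT
    ((finite_zetaZeros T).toFinset.filter (fun z => True ∧ a < z.im)) (fun z => by
      simp only [Finset.mem_filter, Set.Finite.mem_toFinset, true_and]
      refine ⟨fun ⟨⟨h1, r1, r2, _, h3⟩, h4⟩ =>
        ⟨h1, ⟨by linarith, by linarith⟩, h4.le, h3⟩, fun ⟨h1, _, h3⟩ => ?_⟩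
      exact ⟨zero_mem_zetaZeros h1 (ha.trans h3.1) h3.2,
        lt_of_le_of_ne h3.1 fun e => (hca z e.symm).1 h1⟩)
    fun z h1 _ h3 => by
      obtain ⟨-, r1, r2, -⟩ := zero_mem_zetaZeros h1 (ha.trans h3.1) h3.2
      exact ⟨by linarith, by linarith, fun e => (hca z e).1 h1, fun e => (hcT z e).1 h1⟩
  have h3 := hdiff a T 10 ha haT.le (by norm_num) hca hcT
  obtain ⟨s1, s2⟩ := side_right (a := a) (b := T)
  rw [hd, hz]
  push_cast at e1 e2 ⊢
  generalize ((∑ z ∈ (finite_derivZeros T).toFinset.filter (fun z => True ∧ a < z.im),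
    ((analyticOrderNatAt (deriv riemannZeta) z : ℕ) : ℝ))) = X at e1 ⊢
  generalize ((∑ z ∈ (finite_zetaZeros T).toFinset.filter (fun z => True ∧ a < z.im),
    ((analyticOrderNatAt riemannZeta z : ℕ) : ℝ))) = Y at e2 ⊢
  rw [← e1, ← e2] at h3
  have hl1 : 1 ≤ Real.log T := by
    rw [← Real.log_exp 1]
    exact Real.log_le_log (Real.exp_pos 1) (by linarith [Real.exp_one_lt_d9])
  obtain ⟨q, hq⟩ : ∃ q, q = (derivZeroCount a : ℝ) - zeroCount a := ⟨_, rfl⟩
  have hq1 := abs_le.1 (le_refl |q|)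
  have h2p : |2 * π * (X - Y + (T - a) * Real.log 2 / (2 * π))| ≤ K * Real.log T + 4 * π := by
    rw [mul_add, mul_div_cancel₀ _ (by positivity)]
    rw [abs_le] at h3 s1 s2 ⊢
    constructor <;> linarith
  rw [abs_mul, abs_of_pos (show 0 < 2 * π by positivity)] at h2p
  have h4 : |X - Y + (T - a) * Real.log 2 / (2 * π)| ≤ K * Real.log T + 2 := by
    by_contra hc
    have := mul_lt_mul_of_pos_left (not_le.1 hc) (show 0 < 2 * π by positivity)
    nlinarith [Real.pi_gt_three, mul_nonneg hK (show 0 ≤ Real.log T by linarith)]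
  have h5 : |a * Real.log 2 / (2 * π)| ≤ a := by
    rw [abs_of_nonneg (by positivity [show 0 ≤ a by linarith]), div_le_iff₀ (by positivity)]
    exact mul_le_mul_of_nonneg_left (by linarith [Real.log_two_lt_d9, Real.pi_gt_three])
      (by linarith)
  have h6 : |X - Y + (T - a) * Real.log 2 / (2 * π) + q + a * Real.log 2 / (2 * π)| ≤
      D * Real.log T := by
    have : (|q| + a + 3) * 1 ≤ (|q| + a + 3) * Real.log T :=
      mul_le_mul_of_nonneg_left hl1 (by positivity [show 0 ≤ a by linarith])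
    rw [hD, ← hq]
    rw [abs_le] at h4 h5 ⊢
    constructor <;> linarith
  refine le_trans (le_of_eq ?_) h6
  rw [hq]
  congr 1
  ring

/-- **Winding round the left rectangle.** -/
theorem exists_left_diff {a : ℝ} (ha : dzBase ≤ a) (hca : CleanHeight a) :
    ∃ C, 0 ≤ C ∧ ∀ T : ℝ, a < T → CleanHeight T →
      |(derivLeftZeros T : ℝ) - zetaLeftZeros T| ≤ C * Real.log T := by
  obtain ⟨K, hK, hdiff⟩ := exists_rim_diff
  obtain ⟨D, hD⟩ : ∃ D, D = |(derivLeftZeros a : ℝ) - zetaLeftZeros a| + 3 + K := ⟨_, rfl⟩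
  have hb := le_dzBase
  refine ⟨D, by rw [hD]; positivity, fun T haT hcT => ?_⟩
  classical
  obtain ⟨ε₀, hε₀, hleft⟩ := exists_left_of_segment (b := T) ha
  have hev : ∀ᶠ ε in 𝓝[>] (0 : ℝ), ε ∈ Ioo 0 ε₀ ∧ ε < 1 / 2 ∧
      ∀ z ∈ derivZeros T ∪ zetaZeros T, 1 / 2 ≤ z.re ∨ z.re < 1 / 2 - ε := by
    refine (Filter.Eventually.and ?_ (((eventually_lt_nhds one_half_pos).filter_mono
      nhdsWithin_le_nhds).and ?_))
    · exact (eventually_mem_nhdsWithin.and ((eventually_lt_nhds hε₀).filter_mono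
        nhdsWithin_le_nhds)).mono fun ε h => ⟨h.1, h.2⟩
    rw [((finite_derivZeros T).union (finite_zetaZeros T)).eventually_all]
    intro z _
    rcases le_or_gt (1 / 2) z.re with h | h
    · exact Eventually.of_forall fun _ => Or.inl h
    · exact ((eventually_lt_nhds (show 0 < 1 / 2 - z.re by linarith)).filter_mono
        nhdsWithin_le_nhds).mono fun _ hx => Or.inr (by linarith)
  obtain ⟨ε, hεI, hε, hsep⟩ := hev.exists
  have hε0 := hεI.1
  have hd : derivLeftZeros T = derivLeftZeros a +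
      ∑ z ∈ (finite_derivZeros T).toFinset.filter (fun z => z.re < 1 / 2 ∧ a < z.im),
        analyticOrderNatAt (deriv riemannZeta) z :=
    sum_split_height finite_derivZeros (fun _ _ h => derivZeros_le h) (fun z => z.re < 1 / 2)
      (analyticOrderNatAt (deriv riemannZeta)) haT.le
  have hz : zetaLeftZeros T = zetaLeftZeros a +
      ∑ z ∈ (finite_zetaZeros T).toFinset.filter (fun z => z.re < 1 / 2 ∧ a < z.im),
        analyticOrderNatAt riemannZeta z :=
    sum_split_height finite_zetaZeros (fun _ _ h => zetaZeros_le h) (fun z => z.re < 1 / 2)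
      (analyticOrderNatAt riemannZeta) haT.le
  have e1 := box_sum differentiableOn_derivZeta deriv_zeta_ten_ne_zero (b := 1 / 2 - ε) (a := a)
    (T := T) (by linarith) (by linarith) haT
    ((finite_derivZeros T).toFinset.filter (fun z => z.re < 1 / 2 ∧ a < z.im)) (fun z => by
      simp only [Finset.mem_filter, Set.Finite.mem_toFinset]
      refine ⟨fun ⟨hm, hre, h4⟩ => ?_, fun ⟨h1, h2, h3⟩ => ?_⟩
      · obtain ⟨-, r1, -⟩ := zero_mem_derivZeros hm.1 (ha.trans h4.le) hm.2.2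
        exact ⟨hm.1, ⟨by linarith, ((hsep z (Or.inl hm)).resolve_left (not_le.2 hre)).le⟩,
          h4.le, hm.2.2⟩
      · exact ⟨(zero_mem_derivZeros h1 (ha.trans h3.1) h3.2).1, by linarith [h2.2],
          lt_of_le_of_ne h3.1 fun e => (hca z e.symm).2 h1⟩)
    fun z h1 h2 h3 => by
      obtain ⟨hm, r1, -⟩ := zero_mem_derivZeros h1 (ha.trans h3.1) h3.2
      refine ⟨by linarith, fun e => ?_, fun e => (hca z e).2 h1, fun e => (hcT z e).2 h1⟩
      rcases hsep z (Or.inl hm) with h | h <;> linarith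
  have e2 := box_sum differentiableOn_zeta zeta_ten_ne_zero (b := 1 / 2 - ε) (a := a)
    (T := T) (by linarith) (by linarith) haT
    ((finite_zetaZeros T).toFinset.filter (fun z => z.re < 1 / 2 ∧ a < z.im)) (fun z => by
      simp only [Finset.mem_filter, Set.Finite.mem_toFinset]
      refine ⟨fun ⟨hm, hre, h4⟩ => ?_, fun ⟨h1, h2, h3⟩ => ?_⟩
      · exact ⟨hm.1, ⟨by linarith [hm.2.1],
          ((hsep z (Or.inr hm)).resolve_left (not_le.2 hre)).le⟩, h4.le, hm.2.2.2.2⟩
      · exact ⟨zero_mem_zetaZeros h1 (ha.trans h3.1) h3.2, by linarith [h2.2],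
          lt_of_le_of_ne h3.1 fun e => (hca z e.symm).1 h1⟩)
    fun z h1 h2 h3 => by
      have hm := zero_mem_zetaZeros h1 (ha.trans h3.1) h3.2
      refine ⟨by linarith [hm.2.1], fun e => ?_, fun e => (hca z e).1 h1, fun e => (hcT z e).1 h1⟩
      rcases hsep z (Or.inr hm) with h | h <;> linarith
  have h3 := hdiff a T (1 / 2 - ε) ha haT.le ⟨by linarith, by linarith⟩ hca hcT
  have s1 := side_diff (σ := 1 / 2 - ε) (show 0 < a by linarith) haT.le fun v hv => by
    obtain ⟨hx, hneg⟩ := hleft ε hεI v hv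
    exact ⟨(zetaLog_eq (by simp; linarith [hv.1]) hx).1, hneg⟩
  rw [hd, hz]
  push_cast at e1 e2 ⊢
  generalize ((∑ z ∈ (finite_derivZeros T).toFinset.filter (fun z => z.re < 1 / 2 ∧ a < z.im),
    ((analyticOrderNatAt (deriv riemannZeta) z : ℕ) : ℝ))) = X at e1 ⊢
  generalize ((∑ z ∈ (finite_zetaZeros T).toFinset.filter (fun z => z.re < 1 / 2 ∧ a < z.im),
    ((analyticOrderNatAt riemannZeta z : ℕ) : ℝ))) = Y at e2 ⊢
  rw [← e1, ← e2] at h3
  have hl1 : 1 ≤ Real.log T := by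
    rw [← Real.log_exp 1]
    exact Real.log_le_log (Real.exp_pos 1) (by linarith [Real.exp_one_lt_d9])
  have h2p : |2 * π * (X - Y)| ≤ K * Real.log T + 2 * π := by
    rw [abs_le] at h3 s1 ⊢
    constructor <;> linarith
  rw [abs_mul, abs_of_pos (show 0 < 2 * π by positivity)] at h2p
  have h4 : |X - Y| ≤ K * Real.log T + 1 := by
    by_contra hc
    have := mul_lt_mul_of_pos_left (not_le.1 hc) (show 0 < 2 * π by positivity)
    nlinarith [Real.pi_gt_three, mul_nonneg hK (show 0 ≤ Real.log T by linarith)]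
  have : (|(derivLeftZeros a : ℝ) - zetaLeftZeros a| + 3) * 1 ≤
      (|(derivLeftZeros a : ℝ) - zetaLeftZeros a| + 3) * Real.log T :=
    mul_le_mul_of_nonneg_left hl1 (by positivity)
  have hq := abs_le.1 (le_refl |(derivLeftZeros a : ℝ) - zetaLeftZeros a|)
  rw [hD]
  rw [abs_le] at h4 ⊢
  constructor <;> linarith

/-- A bound at clean heights gives one at all heights `≥ 3`. -/
theorem exists_of_clean {a C : ℝ} {E : ℝ → ℝ} {B : ℝ} (hC : 0 ≤ C) (ha : dzBase ≤ a)
    (h : ∀ T, a < T → CleanHeight T → |E T| ≤ C * Real.log T)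
    (hsame : ∀ T T', a ≤ T → T < T' → T' < T + 1 → derivZeros T' = derivZeros T →
      zetaZeros T' = zetaZeros T → |E T - E T'| ≤ B)
    {M : ℝ} (hlow : ∀ T, 3 ≤ T → T ≤ a → |E T| ≤ M) :
    ∃ C', ∀ T : ℝ, 3 ≤ T → |E T| ≤ C' * Real.log T := by
  refine ⟨2 * C + |B| + |M|, fun T hT => ?_⟩
  have hl1 : 1 ≤ Real.log T := by
    rw [← Real.log_exp 1]
    exact Real.log_le_log (Real.exp_pos 1) (by linarith [Real.exp_one_lt_d9])
  have hB := mul_le_mul_of_nonneg_left hl1 (abs_nonneg B)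
  have hM := mul_le_mul_of_nonneg_left hl1 (abs_nonneg M)
  have hC1 := mul_nonneg hC (show 0 ≤ Real.log T by linarith)
  rw [mul_one] at hB hM
  rw [add_mul, add_mul, mul_assoc]
  rcases le_or_gt T a with hTa | hTa
  · have := (hlow T hT hTa).trans (le_abs_self M)
    linarith [abs_nonneg B]
  obtain ⟨T', h1, h2, h3, h4, h5⟩ := exists_clean (ha.trans hTa.le)
  have h6 := h T' (hTa.trans h1) h3
  have h7 := (hsame T T' hTa.le h1 h2 h4 h5).trans (le_abs_self B)
  have h8 : Real.log T' ≤ 2 * Real.log T := by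
    rw [show 2 * Real.log T = Real.log (T ^ 2) by rw [Real.log_pow]; norm_num]
    exact Real.log_le_log (by linarith) (by nlinarith)
  have h9 := mul_le_mul_of_nonneg_left h8 hC
  have h10 := abs_sub_abs_le_abs_sub (E T) (E T')
  linarith [abs_nonneg M]

theorem derivLeftZeros_congr {S T : ℝ} (h : derivZeros S = derivZeros T) :
    derivLeftZeros S = derivLeftZeros T := by
  rw [derivLeftZeros, derivLeftZeros, Set.Finite.toFinset_inj.2 h]

theorem zetaLeftZeros_congr {S T : ℝ} (h : zetaZeros S = zetaZeros T) :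
    zetaLeftZeros S = zetaLeftZeros T := by
  rw [zetaLeftZeros, zetaLeftZeros, Set.Finite.toFinset_inj.2 h]

theorem counts_mono {S T : ℝ} (h : S ≤ T) :
    derivZeroCount S ≤ derivZeroCount T ∧ derivLeftZeros S ≤ derivLeftZeros T ∧
      zetaLeftZeros S ≤ zetaLeftZeros T := by
  classical
  refine ⟨Finset.sum_le_sum_of_subset ?_, Finset.sum_le_sum_of_subset ?_,
    Finset.sum_le_sum_of_subset ?_⟩
  · exact Set.Finite.toFinset_subset_toFinset.2 fun z hz => ((derivZeros_le h z).1 hz).1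
  · exact Finset.filter_subset_filter _
      (Set.Finite.toFinset_subset_toFinset.2 fun z hz => ((derivZeros_le h z).1 hz).1)
  · exact Finset.filter_subset_filter _
      (Set.Finite.toFinset_subset_toFinset.2 fun z hz => ((zetaZeros_le h z).1 hz).1)

theorem exists_start : ∃ a, dzBase ≤ a ∧ CleanHeight a := by
  obtain ⟨a, h1, -, h3, -⟩ := exists_clean (le_refl dzBase)
  exact ⟨a, h1.le, h3⟩

/-- **Levinson–Montgomery.** -/
theorem exists_levinson_montgomery : ∃ C, ∀ T : ℝ, 3 ≤ T →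
    |(derivLeftZeros T : ℝ) - zetaLeftZeros T| ≤ C * Real.log T := by
  obtain ⟨a, ha, hca⟩ := exists_start
  obtain ⟨C, hC, h⟩ := exists_left_diff ha hca
  refine exists_of_clean (E := fun T => (derivLeftZeros T : ℝ) - zetaLeftZeros T) (B := 0) hC ha h
    (fun T T' _ _ _ h4 h5 => by
      simp only [derivLeftZeros_congr h4, zetaLeftZeros_congr h5, sub_self, abs_zero, le_refl])
    (M := (derivLeftZeros a : ℝ) + zetaLeftZeros a) fun T _ hTa => ?_
  obtain ⟨-, h2, h3⟩ := counts_mono hTa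
  have h2' : (derivLeftZeros T : ℝ) ≤ derivLeftZeros a := Nat.cast_le.2 h2
  have h3' : (zetaLeftZeros T : ℝ) ≤ zetaLeftZeros a := Nat.cast_le.2 h3
  rw [abs_le]
  constructor <;> linarith [(derivLeftZeros T).cast_nonneg (α := ℝ),
    (zetaLeftZeros T).cast_nonneg (α := ℝ), (derivLeftZeros a).cast_nonneg (α := ℝ),
    (zetaLeftZeros a).cast_nonneg (α := ℝ)]

/-- **Berndt**, relative to the count of the zeros of `ζ`. -/
theorem exists_berndt_diff : ∃ C, ∀ T : ℝ, 3 ≤ T →
    |(derivZeroCount T : ℝ) - zeroCount T + T * Real.log 2 / (2 * π)| ≤ C * Real.log T := by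
  obtain ⟨a, ha, hca⟩ := exists_start
  obtain ⟨C, hC, h⟩ := exists_full_diff ha hca
  refine exists_of_clean
    (E := fun T => (derivZeroCount T : ℝ) - zeroCount T + T * Real.log 2 / (2 * π)) (B := 1)
    hC ha h (fun T T' _ h1 h2 h4 h5 => ?_)
    (M := (derivZeroCount a : ℝ) + zeroCount a + a) fun T hT hTa => ?_
  · have e1 : derivZeroCount T' = derivZeroCount T := by
      rw [derivZeroCount, derivZeroCount, Set.Finite.toFinset_inj.2 h4]
    have e2 : zeroCount T' = zeroCount T := by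
      rw [zeroCount, zeroCount, Set.Finite.toFinset_inj.2 h5]
    simp only [e1, e2]
    rw [add_sub_add_left_eq_sub, ← sub_div, ← sub_mul, abs_div,
      abs_of_pos (show 0 < 2 * π by positivity), div_le_one (by positivity), abs_mul,
      abs_of_pos (Real.log_pos one_lt_two), abs_of_neg (by linarith)]
    nlinarith [Real.log_two_lt_d9, Real.log_two_gt_d9, Real.pi_gt_three]
  · obtain ⟨h1, -, -⟩ := counts_mono hTa
    have h1' : (derivZeroCount T : ℝ) ≤ derivZeroCount a := Nat.cast_le.2 h1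
    have h2' : (zeroCount T : ℝ) ≤ zeroCount a :=
      Nat.cast_le.2 (FA.RiemannMangoldt.zeroCount_mono hTa)
    have h5 : T * Real.log 2 / (2 * π) ≤ a ∧ 0 ≤ T * Real.log 2 / (2 * π) := by
      refine ⟨?_, by positivity [show 0 ≤ T by linarith]⟩
      rw [div_le_iff₀ (by positivity)]
      exact mul_le_mul hTa (by linarith [Real.log_two_lt_d9, Real.pi_gt_three])
        (Real.log_pos one_lt_two).le (by linarith)
    rw [abs_le]
    constructor <;> linarith [(derivZeroCount T).cast_nonneg (α := ℝ),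
      (zeroCount T).cast_nonneg (α := ℝ), (derivZeroCount a).cast_nonneg (α := ℝ),
      (zeroCount a).cast_nonneg (α := ℝ)]

theorem ell_le_log {T : ℝ} (hT : 3 ≤ T) : FA.ZeroFree.ell T ≤ 6 * Real.log T := by
  rw [show (6 : ℝ) * Real.log T = Real.log (T ^ 6) by rw [Real.log_pow]; norm_num]
  refine Real.log_le_log (by positivity) ?_
  rw [abs_of_nonneg (by linarith)]
  have : (243 : ℝ) ≤ T ^ 5 := by
    calc (243 : ℝ) = 3 ^ 5 := by norm_num
      _ ≤ _ := pow_le_pow_left₀ (by norm_num) hT 5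
  nlinarith

/-- **Berndt's theorem.** -/
theorem exists_berndt : ∃ C, ∀ T : ℝ, 3 ≤ T →
    |(derivZeroCount T : ℝ) -
      (T / (2 * π) * Real.log (T / (4 * π)) - T / (2 * π))| ≤ C * Real.log T := by
  obtain ⟨C, hC⟩ := exists_berndt_diff
  obtain ⟨D, hD, hN⟩ := FA.RiemannMangoldt.exists_count
  refine ⟨C + 6 * D, fun T hT => ?_⟩
  have e : T / (2 * π) * Real.log (T / (4 * π)) - T / (2 * π) =
      mainTerm T - T * Real.log 2 / (2 * π) := by
    rw [mainTerm, show T / (4 * π) = T / (2 * π) / 2 by ring,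
      Real.log_div (div_ne_zero (by linarith) (by positivity)) two_ne_zero]
    ring
  have h1 := hC T hT
  have h2 := hN T hT
  have h3 := mul_le_mul_of_nonneg_left (ell_le_log hT) hD
  rw [e]
  rw [abs_le] at h1 h2 ⊢
  constructor <;> linarith

/-- The zeros are on the line or pair off across it. -/
theorem zeroCount_split (T : ℝ) :
    zeroCount T = 2 * zetaLeftZeros T +
      ∑ ρ ∈ (finite_zetaZeros T).toFinset.filter (fun ρ => ρ.re = 1 / 2),
        analyticOrderNatAt riemannZeta ρ := by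
  classical
  obtain ⟨F, hF⟩ : ∃ F, F = (finite_zetaZeros T).toFinset := ⟨_, rfl⟩
  have hmir : ∀ ρ ∈ F, LindelofZeros.mirror ρ ∈ F ∧
      analyticOrderNatAt riemannZeta (LindelofZeros.mirror ρ) =
        analyticOrderNatAt riemannZeta ρ := fun ρ hρ => by
    rw [hF, Set.Finite.mem_toFinset] at hρ
    obtain ⟨hx, h1, h2⟩ := mem_zetaZeros_iff.1 hρ
    have hx' := LindelofZeros.xiFn_mirror hx
    obtain ⟨a0, a1⟩ := RiemannMangoldt.xiFn_zero_strip hx'
    obtain ⟨b0, b1⟩ := RiemannMangoldt.xiFn_zero_strip hx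
    rw [hF, Set.Finite.mem_toFinset, mem_zetaZeros_iff, LindelofZeros.mirror_im]
    refine ⟨⟨hx', h1, h2⟩, ?_⟩
    rw [← RiemannMangoldt.analyticOrderNatAt_xiFn a0 (fun h => a1.ne (by rw [h, one_re])),
      ← RiemannMangoldt.analyticOrderNatAt_xiFn b0 (fun h => b1.ne (by rw [h, one_re]))]
    exact LindelofZeros.zeroWeight_mirror ρ
  have hinv : ∀ ρ : ℂ, LindelofZeros.mirror (LindelofZeros.mirror ρ) = ρ := fun ρ => by
    simp [LindelofZeros.mirror_apply]
  have hR : ∑ ρ ∈ F.filter (fun ρ => 1 / 2 < ρ.re), analyticOrderNatAt riemannZeta ρ =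
      zetaLeftZeros T := by
    rw [zetaLeftZeros, ← hF]
    refine Finset.sum_nbij' LindelofZeros.mirror LindelofZeros.mirror ?_ ?_
      (fun ρ _ => hinv ρ) (fun ρ _ => hinv ρ) fun ρ hρ =>
        ((hmir ρ (Finset.mem_filter.1 hρ).1).2).symm
    · intro ρ hρ
      obtain ⟨h1, h2⟩ := Finset.mem_filter.1 hρ
      exact Finset.mem_filter.2 ⟨(hmir ρ h1).1, by rw [LindelofZeros.mirror_re]; linarith⟩
    · intro ρ hρ
      obtain ⟨h1, h2⟩ := Finset.mem_filter.1 hρ
      exact Finset.mem_filter.2 ⟨(hmir ρ h1).1, by rw [LindelofZeros.mirror_re]; linarith⟩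
  rw [two_mul, zeroCount]
  nth_rw 2 [← hR]
  rw [zetaLeftZeros, ← hF, Finset.sum_filter, Finset.sum_filter, Finset.sum_filter,
    ← Finset.sum_add_distrib, ← Finset.sum_add_distrib]
  refine Finset.sum_congr rfl fun ρ _ => ?_
  rcases lt_trichotomy ρ.re (1 / 2) with h | h | h
  · rw [if_pos h, if_neg (by linarith), if_neg h.ne, add_zero, add_zero]
  · rw [if_neg (by linarith), if_neg (by linarith), if_pos h, zero_add, zero_add]
  · rw [if_neg (by linarith), if_pos h, if_neg h.ne', zero_add, add_zero]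

theorem lineZeros_le (T : ℝ) : (HardyLittlewoodZeros.lineZeros T).ncard + 2 * zetaLeftZeros T ≤
    zeroCount T := by
  classical
  rw [zeroCount_split T, add_comm]
  refine add_le_add le_rfl ?_
  obtain ⟨L, hL⟩ : ∃ L, L = (finite_zetaZeros T).toFinset.filter (fun ρ => ρ.re = 1 / 2) :=
    ⟨_, rfl⟩
  rw [← hL]
  have hsub : ∀ t ∈ (HardyLittlewoodZeros.finite_lineZeros T).toFinset,
      (1 / 2 : ℂ) + t * I ∈ L := fun t ht => by
    rw [Set.Finite.mem_toFinset] at ht
    obtain ⟨h1, h2, h3⟩ := ht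
    rw [hL, Finset.mem_filter, Set.Finite.mem_toFinset]
    exact ⟨⟨h3, by simp, by simp; norm_num, by simpa using h1, by simpa using h2⟩, by simp⟩
  rw [Set.ncard_eq_toFinset_card _ (HardyLittlewoodZeros.finite_lineZeros T)]
  refine (Finset.card_le_card_of_injOn (fun t : ℝ => (1 / 2 : ℂ) + t * I) hsub
    fun x _ y _ h => by simpa using congrArg Complex.im h).trans ?_
  rw [Finset.card_eq_sum_ones]
  refine Finset.sum_le_sum fun ρ hρ => ?_
  rw [hL, Finset.mem_filter, Set.Finite.mem_toFinset] at hρ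
  exact order_pos differentiableOn_zeta (by simp) zeta_ten_ne_zero hρ.1.2.2.2.1 hρ.1.1

/-- **Speiser's direction.** -/
theorem deriv_zeta_ne_zero_of_rh (hRH : RiemannHypothesis) {s : ℂ} (h1 : s.re < 1 / 2)
    (h2 : dzBase ≤ s.im) : deriv riemannZeta s ≠ 0 := fun h => by
  obtain ⟨-, h3⟩ := re_zetaLog_neg_of_rh hRH h1 h2
  rw [re_add_im, zetaLog, h, zero_div, zero_re] at h3
  exact lt_irrefl _ h3

/-- **The converse up to `O (log T)`.** -/
theorem exists_offLine_le {t₀ : ℝ}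
    (hne : ∀ s : ℂ, s.re < 1 / 2 → t₀ ≤ s.im → deriv riemannZeta s ≠ 0) :
    ∃ C, ∀ T : ℝ, 3 ≤ T → ((∑ ρ ∈ (finite_zetaZeros T).toFinset.filter (fun ρ => ρ.re ≠ 1 / 2),
      analyticOrderNatAt riemannZeta ρ : ℕ) : ℝ) ≤ C * Real.log T := by
  classical
  obtain ⟨C, hC⟩ := exists_levinson_montgomery
  obtain ⟨M, hM⟩ : ∃ M, M = (derivLeftZeros t₀ : ℝ) := ⟨_, rfl⟩
  refine ⟨2 * |C| + 2 * M, fun T hT => ?_⟩
  have hl1 : 1 ≤ Real.log T := by
    rw [← Real.log_exp 1]
    exact Real.log_le_log (Real.exp_pos 1) (by linarith [Real.exp_one_lt_d9])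
  have h1 : (derivLeftZeros T : ℝ) ≤ M := by
    rw [hM, Nat.cast_le]
    refine Finset.sum_le_sum_of_subset fun z hz => ?_
    rw [Finset.mem_filter, Set.Finite.mem_toFinset] at hz ⊢
    exact ⟨⟨hz.1.1, hz.1.2.1, le_of_not_gt fun h => hne z hz.2 h.le hz.1.1⟩, hz.2⟩
  have h2 : ∑ ρ ∈ (finite_zetaZeros T).toFinset.filter (fun ρ => ρ.re ≠ 1 / 2),
      analyticOrderNatAt riemannZeta ρ = 2 * zetaLeftZeros T := by
    have e := zeroCount_split T
    rw [zeroCount, ← Finset.sum_filter_not_add_sum_filter _ (fun ρ : ℂ => ρ.re = 1 / 2)] at e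
    simp only [ne_eq] at e ⊢
    omega
  have h3 := (abs_le.1 (hC T hT)).1
  rw [h2]
  push_cast
  nlinarith [le_abs_self C, mul_le_mul_of_nonneg_left hl1 (show 0 ≤ M by rw [hM]; positivity),
    abs_nonneg C]

/-- **At most a third of the zeros of `ζ'` lie left of the line.** -/
theorem eventually_third : ∀ᶠ T : ℝ in atTop,
    3 * (derivLeftZeros T : ℝ) < derivZeroCount T := by
  obtain ⟨κ, hκ, hlev⟩ := FA.LevinsonThird.exists_more_than_third
  obtain ⟨C₁, hC₁⟩ := exists_levinson_montgomery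
  obtain ⟨C₂, hC₂⟩ := exists_berndt_diff
  obtain ⟨D, hD, hN⟩ := FA.RiemannMangoldt.exists_count
  obtain ⟨δ, hδ⟩ : ∃ δ, δ = 3 / 2 * κ - 1 / 2 := ⟨_, rfl⟩
  have hδ0 : 0 < δ := by linarith
  obtain ⟨W, hW⟩ : ∃ W, W = 3 * |C₁| + |C₂| + 6 * D * δ + 1 := ⟨_, rfl⟩
  filter_upwards [hlev, eventually_ge_atTop (3 : ℝ),
    Real.tendsto_log_atTop.eventually_ge_atTop
      (Real.log (2 * π) + 1 + (2 * π) * ((1 + W) / δ + 1))]
    with T hT h3 hlog
  have h1 := abs_le.1 (hC₁ T h3)
  have h2 := abs_le.1 (hC₂ T h3)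
  have h4 := abs_le.1 (hN T h3)
  have h5 : ((HardyLittlewoodZeros.lineZeros T).ncard : ℝ) + 2 * zetaLeftZeros T ≤ zeroCount T := by
    exact_mod_cast lineZeros_le T
  have hL : Real.log T ≤ T := Real.log_le_self (by linarith)
  have hL0 : 0 ≤ Real.log T := Real.log_nonneg (by linarith)
  have h6 := mul_le_mul_of_nonneg_left (ell_le_log h3) hD
  have hmain : ((1 + W) / δ + 1) * T ≤ mainTerm T := by
    rw [mainTerm, Real.log_div (by linarith) (by positivity),
      show T / (2 * π) * (Real.log T - Real.log (2 * π)) - T / (2 * π) =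
        T / (2 * π) * (Real.log T - Real.log (2 * π) - 1) by ring, div_mul_eq_mul_div,
      le_div_iff₀ (by positivity)]
    linarith [mul_le_mul_of_nonneg_left hlog (show 0 ≤ T by linarith)]
  have h7 : δ * zeroCount T ≥ (1 + W) * T - 6 * D * δ * Real.log T := by
    have := mul_le_mul_of_nonneg_left (show ((1 + W) / δ + 1) * T - 6 * D * Real.log T ≤
      zeroCount T by linarith) hδ0.le
    have e : δ * (((1 + W) / δ + 1) * T - 6 * D * Real.log T) =
        (1 + W) * T + δ * T - 6 * D * δ * Real.log T := by field_simp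
    rw [e] at this
    linarith [mul_nonneg hδ0.le (show 0 ≤ T by linarith)]
  have h8 : T * Real.log 2 / (2 * π) ≤ T := by
    rw [div_le_iff₀ (by positivity)]
    exact mul_le_mul_of_nonneg_left (by linarith [Real.log_two_lt_d9, Real.pi_gt_three])
      (by linarith)
  have h9 : W * Real.log T ≤ W * T := mul_le_mul_of_nonneg_left hL (by rw [hW]; positivity)
  have a1 : C₁ * Real.log T ≤ |C₁| * Real.log T :=
    mul_le_mul_of_nonneg_right (le_abs_self _) hL0
  have a2 : C₂ * Real.log T ≤ |C₂| * Real.log T :=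
    mul_le_mul_of_nonneg_right (le_abs_self _) hL0
  rw [hW] at h7 h9
  rw [hδ] at h7 h9
  nlinarith [mul_nonneg hD hL0]

end FA.DerivZetaZeros

end
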